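import Fermat.Agent.DihedralGlue.Main
import Fermat.Agent.CFT.ClassChar

/-!
# Class field theory input

The class field theory input of the dihedral glue.
-/

namespace Fermat.Agent.DihedralGlue

/-- `ClassCharInput` holds. -/
theorem classCharInput : ClassCharInput := fun K L _ _ _ _ _ _ hdeg hunr ↦
  Fermat.Agent.CFT.exists_classChar K L Nat.prime_three (by norm_num) hdeg hunr

end Fermat.Agent.DihedralGlue
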