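import Fermat.Agent.DihedralGlue.TwoTorsion
import Fermat.Agent.FreyReducible.InertiaLift
import Fermat.Agent.EllFrobenius.Rat
import Fermat.Agent.X015.Reducible
import Fermat.Agent.TwoAdic.Blueprint.Local

/-!
# The two-torsion as a dihedral representation

`E[2]` of the switched curve, extended to a field of characteristic `2`, is a dihedral residual
representation of the field `ℚ(√-D)`, with trace `a_ℓ` at good primes.
-/

noncomputable section

namespace Fermat.Agent.DihedralGlue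

open WeierstrassCurve Matrix Polynomial
open Fermat.Agent.DefRing Fermat.Agent.FreyReducible
open scoped WeierstrassCurve.Affine

local notation "Ω" => AlgebraicClosure ℚ

local instance isAlgebraicQbar_dg : Algebra.IsAlgebraic ℚ Ω := AlgebraicClosure.isAlgebraic ℚ
local instance isAlgClosureQbar_dg : IsAlgClosure ℚ Ω := ⟨inferInstance, inferInstance⟩
local instance isGaloisQbar_dg : IsGalois ℚ Ω := IsAlgClosure.isGalois ℚ Ω

/-- The six matrices of determinant one over `𝔽₂`. -/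
theorem sl_two_cases : ∀ M : Matrix (Fin 2) (Fin 2) (ZMod 2), M.det = 1 →
    M = !![1, 0; 0, 1] ∨ M = !![0, 1; 1, 0] ∨ M = !![1, 1; 0, 1] ∨ M = !![1, 0; 1, 1] ∨
      M = !![0, 1; 1, 1] ∨ M = !![1, 1; 1, 0] := by
  decide +kernel

theorem mulVec_fin_two (M : Matrix (Fin 2) (Fin 2) (ZMod 2)) (x y : ZMod 2) :
    M *ᵥ ![x, y] = ![M 0 0 * x + M 0 1 * y, M 1 0 * x + M 1 1 * y] := by
  ext i
  fin_cases i <;> simp [Matrix.mulVec, dotProduct, Fin.sum_univ_two]

variable (W : WeierstrassCurve ℤ) (b : Module.Basis (Fin 2) (ZMod 2) (Tors W))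

/-- The matrix of `σ` on `E[2]`. -/
def torsMat : MRep (ZMod 2) :=
  (LinearMap.toMatrixAlgEquiv b).toRingEquiv.toRingHom.toMonoidHom.comp
    (Affine.Point.galoisRepModuleEnd ℚ (ratCurve W).toAffine 2)

theorem torsMat_apply (σ : GQ) : torsMat W b σ =
    LinearMap.toMatrix b b (Affine.Point.galoisRepModuleEnd ℚ (ratCurve W).toAffine 2 σ) := rfl

theorem det_torsMat (σ : GQ) : (torsMat W b σ).det = 1 := by
  have h : (torsMat W b σ).det * (torsMat W b σ⁻¹).det = 1 := by
    rw [← det_mul, ← map_mul, mul_inv_cancel, map_one, det_one]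
  exact (show ∀ x y : ZMod 2, x * y = 1 → x = 1 by decide) _ _ h

/-- The point with coordinates `v`. -/
def pt (v : Fin 2 → ZMod 2) : Tors W := b.equivFun.symm v

theorem pt_ne_zero {v : Fin 2 → ZMod 2} (hv : v ≠ 0) : pt W b v ≠ 0 := fun h =>
  hv (b.equivFun.symm.map_eq_zero_iff.1 h)

/-- `u = 4x` of the point with coordinates `v`. -/
def uVal (v : Fin 2 → ZMod 2) : Ω := uCoord W (pt W b v : ((ratCurve W).toAffine⁄Ω).Point)

theorem apply_uVal (σ : GQ) (v : Fin 2 → ZMod 2) :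
    σ (uVal W b v) = uVal W b (torsMat W b σ *ᵥ v) := by
  have h : pt W b (torsMat W b σ *ᵥ v) = σ • pt W b v := by
    apply b.equivFun.injective
    rw [pt, LinearEquiv.apply_symm_apply, torsMat_apply]
    have := LinearMap.toMatrix_mulVec_repr b b
      (Affine.Point.galoisRepModuleEnd ℚ (ratCurve W).toAffine 2 σ) (pt W b v)
    rw [show (b.repr (pt W b v) : Fin 2 → ZMod 2) = v from b.equivFun.apply_symm_apply v] at this
    rw [this]
    rfl
  rw [uVal, uVal, h]
  exact (uCoord_smul W σ _).symm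

theorem twoCubic_uVal {v : Fin 2 → ZMod 2} (hv : v ≠ 0) : twoCubic W (uVal W b v) = 0 :=
  twoCubic_uCoord W _ (pt_ne_zero W b hv)

theorem uVal_injective {v w : Fin 2 → ZMod 2} (hv : v ≠ 0) (hw : w ≠ 0)
    (h : uVal W b v = uVal W b w) : v = w :=
  b.equivFun.symm.injective (uCoord_injective W (pt_ne_zero W b hv) (pt_ne_zero W b hw) h)

theorem uVal_sum :
    -(W.b₂ : Ω) = uVal W b ![1, 0] + uVal W b ![0, 1] + uVal W b ![1, 1] ∧
    8 * (W.b₄ : Ω) = uVal W b ![1, 0] * uVal W b ![0, 1] + uVal W b ![1, 0] * uVal W b ![1, 1] +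
      uVal W b ![0, 1] * uVal W b ![1, 1] ∧
    -(16 * (W.b₆ : Ω)) = uVal W b ![1, 0] * uVal W b ![0, 1] * uVal W b ![1, 1] := by
  have hne : ∀ v w : Fin 2 → ZMod 2, v ≠ 0 → w ≠ 0 → v ≠ w → uVal W b v ≠ uVal W b w :=
    fun v w hv hw hvw h => hvw (uVal_injective W b hv hw h)
  set a := uVal W b ![1, 0]
  set c := uVal W b ![0, 1]
  set e := uVal W b ![1, 1]
  have hfac := twoCubic_eq_mul W (hne ![1, 0] ![0, 1] (by decide) (by decide) (by decide))
    (twoCubic_uVal W b (by decide)) (twoCubic_uVal W b (by decide))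
  have he := (hfac e).symm.trans (twoCubic_uVal W b (v := ![1, 1]) (by decide))
  simp only [mul_eq_zero, sub_eq_zero] at he
  have he' : e = -(W.b₂ : Ω) - a - c := by
    rcases he with (h | h) | h
    · exact absurd h (hne ![1, 1] ![1, 0] (by decide) (by decide) (by decide))
    · exact absurd h (hne ![1, 1] ![0, 1] (by decide) (by decide) (by decide))
    · exact h
  have h0 := hfac 0
  have h1 := hfac 1
  simp only [twoCubic] at h0 h1
  rw [he']
  exact ⟨by ring, by linear_combination h1 - h0, by linear_combination -h0⟩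

/-- The square root `δ` of the discriminant of the cubic. -/
def delta : Ω :=
  (uVal W b ![1, 0] - uVal W b ![0, 1]) * (uVal W b ![1, 0] - uVal W b ![1, 1]) *
    (uVal W b ![0, 1] - uVal W b ![1, 1])

theorem delta_sq : delta W b ^ 2 = ((256 * W.Δ : ℤ) : Ω) := by
  obtain ⟨hs, hp, hd⟩ := uVal_sum W b
  have h := congrArg (fun z : ℤ => (z : Ω)) (twoCubic_discr W)
  rw [delta]
  push_cast at h ⊢
  rw [← h, show (W.b₂ : Ω) = -(uVal W b ![1, 0] + uVal W b ![0, 1] + uVal W b ![1, 1]) by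
    linear_combination -hs, hp, show 16 * (W.b₆ : Ω) =
    -(uVal W b ![1, 0] * uVal W b ![0, 1] * uVal W b ![1, 1]) by linear_combination -hd]
  ring

theorem apply_delta (σ : GQ) :
    σ (delta W b) = if (torsMat W b σ).trace ≠ 0 ∨ torsMat W b σ = 1 then delta W b
      else -delta W b := by
  rw [delta, map_mul, map_mul, map_sub, map_sub, map_sub, apply_uVal, apply_uVal, apply_uVal]
  simp only [mulVec_fin_two]
  have h11 : (1 : ZMod 2) + 1 = 0 := rfl
  rcases sl_two_cases _ (det_torsMat W b σ) with h | h | h | h | h | h <;> rw [h] <;>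
    simp +decide [h11] <;>
    ring

variable {D : ℕ}

/-- A square root of `-D`. -/
theorem exists_theta (hΔ : W.Δ ≠ 0) (hD : D ≠ 0) (hsq : IsSquare (-W.Δ * D)) :
    ∃ (q : ℚ), q ≠ 0 ∧ ((q : Ω) * delta W b) ^ 2 = -(D : Ω) := by
  obtain ⟨s, hs⟩ := hsq
  have hs0 : (s : ℚ) ≠ 0 := by
    intro h
    rw [Int.cast_eq_zero] at h
    rw [h, mul_zero, mul_eq_zero, neg_eq_zero, Int.natCast_eq_zero] at hs
    exact hs.elim hΔ hD
  refine ⟨(D : ℚ) / (16 * (s : ℚ)), div_ne_zero (Nat.cast_ne_zero.2 hD) (by positivity), ?_⟩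
  have h' : -(W.Δ : Ω) * (D : Ω) = (s : Ω) * (s : Ω) := by
    exact_mod_cast congrArg (fun z : ℤ => (z : Ω)) hs
  have hsΩ : (s : Ω) ≠ 0 := by exact_mod_cast hs0
  rw [mul_pow, delta_sq]
  push_cast
  field_simp
  linear_combination -256 * h'

theorem forall_sqrt_fixed_iff (hΔ : W.Δ ≠ 0) (hD : D ≠ 0) (hsq : IsSquare (-W.Δ * D)) (σ : GQ) :
    (∀ x : Ω, x ^ 2 = -(D : Ω) → σ x = x) ↔
      ((torsMat W b σ).trace ≠ 0 ∨ torsMat W b σ = 1) := by
  obtain ⟨q, hq, hθ⟩ := exists_theta W b hΔ hD hsq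
  have hσq : σ ((q : Ω) * delta W b) = (q : Ω) * σ (delta W b) := by
    rw [map_mul, map_ratCast]
  constructor
  · intro h
    by_contra hne
    have h' := h _ hθ
    rw [hσq, apply_delta, if_neg hne] at h'
    have h0 : (q : Ω) * delta W b = 0 := by linear_combination -(1 / 2 : Ω) * h'
    rw [h0, zero_pow two_ne_zero, eq_comm, neg_eq_zero, Nat.cast_eq_zero] at hθ
    exact hD hθ
  · intro h x hx
    rcases sq_eq_sq_iff_eq_or_eq_neg.1 (hx.trans hθ.symm) with rfl | rfl
    · rw [hσq, apply_delta, if_pos h]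
    · rw [map_neg, hσq, apply_delta, if_pos h]

/-- Every matrix of determinant one is the action of some Galois element on `E[2]`. -/
theorem exists_torsMat_eq (hΔ : W.Δ ≠ 0) (hD : D ≠ 0) (hsq : IsSquare (-W.Δ * D))
    (hroot : ∀ x : ℚ, twoCubic W x ≠ 0) {M : Matrix (Fin 2) (Fin 2) (ZMod 2)} (hM : M.det = 1) :
    ∃ σ : GQ, torsMat W b σ = M := by
  have htrans : ∀ v w : Fin 2 → ZMod 2, v ≠ 0 → w ≠ 0 → ∃ σ : GQ, torsMat W b σ *ᵥ v = w := by
    intro v w hv hw
    have hirr : Irreducible (Cubic.mk 1 (W.b₂ : ℚ) (8 * (W.b₄ : ℚ)) (16 * (W.b₆ : ℚ))).toPoly := by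
      have hm := Cubic.monic_of_a_eq_one (P := Cubic.mk 1 (W.b₂ : ℚ) (8 * (W.b₄ : ℚ))
        (16 * (W.b₆ : ℚ))) rfl
      rw [hm.irreducible_iff_roots_eq_zero_of_degree_le_three
        (by rw [Cubic.natDegree_of_a_ne_zero one_ne_zero]; norm_num)
        (by rw [Cubic.natDegree_of_a_ne_zero one_ne_zero]), Multiset.eq_zero_iff_forall_notMem]
      intro x hx
      rw [mem_roots hm.ne_zero, IsRoot] at hx
      exact hroot x (by simpa [Cubic.toPoly, twoCubic] using hx)
    have hmin : ∀ u : Fin 2 → ZMod 2, u ≠ 0 → minpoly ℚ (uVal W b u) =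
        (Cubic.mk 1 (W.b₂ : ℚ) (8 * (W.b₄ : ℚ)) (16 * (W.b₆ : ℚ))).toPoly := fun u hu =>
      (minpoly.eq_of_irreducible_of_monic hirr
        (by simpa [Cubic.toPoly, twoCubic] using twoCubic_uVal W b hu)
        (Cubic.monic_of_a_eq_one rfl)).symm
    obtain ⟨σ, hσ⟩ := MulAction.mem_orbit_iff.1
      ((Normal.minpoly_eq_iff_mem_orbit Ω).1 ((hmin w hw).trans (hmin v hv).symm))
    refine ⟨σ, uVal_injective W b (fun h0 => hv ?_) hw ((apply_uVal W b σ v).symm.trans hσ)⟩
    have h := congrArg (torsMat W b σ⁻¹ *ᵥ ·) h0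
    simp only [mulVec_mulVec, mulVec_zero] at h
    rwa [← map_mul, inv_mul_cancel, map_one, one_mulVec] at h
  obtain ⟨t, ht⟩ : ∃ t : GQ, ¬ ((torsMat W b t).trace ≠ 0 ∨ torsMat W b t = 1) := by
    by_contra h
    push Not at h
    obtain ⟨q, -, hθ⟩ := exists_theta W b hΔ hD hsq
    obtain ⟨r, hr⟩ := X015.exists_rat_of_fixed (z := (q : Ω) * delta W b)
      fun σ => (forall_sqrt_fixed_iff W b hΔ hD hsq σ).2 (h σ) _ hθ
    rw [← hr, ← map_pow, ← map_natCast (algebraMap ℚ Ω), ← map_neg] at hθ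
    have := (algebraMap ℚ Ω).injective hθ
    have : (0 : ℚ) < D := by exact_mod_cast Nat.pos_of_ne_zero hD
    nlinarith [sq_nonneg r]
  obtain ⟨v, hv, hfix⟩ : ∃ v : Fin 2 → ZMod 2, v ≠ 0 ∧ torsMat W b t *ᵥ v = v := by
    rcases sl_two_cases _ (det_torsMat W b t) with h | h | h | h | h | h <;> rw [h] at ht ⊢
    · exact absurd (Or.inr (by decide)) ht
    · exact ⟨![1, 1], by decide, by decide⟩
    · exact ⟨![1, 0], by decide, by decide⟩
    · exact ⟨![0, 1], by decide, by decide⟩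
    · exact absurd (Or.inl (by decide)) ht
    · exact absurd (Or.inl (by decide)) ht
  have hMv : M *ᵥ v ≠ 0 := fun h => hv <| by
    have h' := congrArg (M.adjugate *ᵥ ·) h
    simp only [mulVec_mulVec, adjugate_mul, hM, one_smul, one_mulVec, mulVec_zero] at h'
    exact h'
  obtain ⟨g, hg⟩ := htrans v (M *ᵥ v) hv hMv
  have key : ∀ (g t : Matrix (Fin 2) (Fin 2) (ZMod 2)) (v : Fin 2 → ZMod 2), g.det = 1 →
      t.det = 1 → ¬ (t.trace ≠ 0 ∨ t = 1) → v ≠ 0 → t *ᵥ v = v → g *ᵥ v = M *ᵥ v →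
      M = g ∨ M = g * t := by
    intro g t v hgd htd
    rcases sl_two_cases g hgd with rfl | rfl | rfl | rfl | rfl | rfl <;>
      rcases sl_two_cases t htd with rfl | rfl | rfl | rfl | rfl | rfl <;>
      rcases sl_two_cases M hM with rfl | rfl | rfl | rfl | rfl | rfl <;>
      revert v <;> decide
  rcases key _ _ v (det_torsMat W b g) (det_torsMat W b t) ht hv hfix hg with h | h
  · exact ⟨g, h.symm⟩
  · exact ⟨g * t, by rw [map_mul, h]⟩

theorem isIntegral_uVal {v : Fin 2 → ZMod 2} (hv : v ≠ 0) : IsIntegral ℤ (uVal W b v) :=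
  ⟨(Cubic.mk 1 W.b₂ (8 * W.b₄) (16 * W.b₆)).toPoly, Cubic.monic_of_a_eq_one rfl, by
    rw [← eval_map]
    simpa [Cubic.toPoly, twoCubic] using twoCubic_uVal W b hv⟩

/-- Inertia never rotates the three points. -/
theorem trace_eq_zero_of_inertia (hW : W.IsSemistableModel) (hΔ : W.Δ ≠ 0)
    (h2 : (2 : ℤ) ∣ W.Δ) (P : ValuationSubring Ω) {τ : GQ}
    (hτ : τ ∈ P.inertiaSubgroupIn ℚ) : (torsMat W b τ).trace = 0 := by
  by_contra htr
  have hmove : ∀ v : Fin 2 → ZMod 2, v ≠ 0 →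
      uVal W b (torsMat W b τ *ᵥ v) - uVal W b v ∈ P.nonunits := fun v hv => by
    rw [← apply_uVal]
    exact ((mem_inertiaSubgroupIn_iff P τ).1 hτ).2 _
      (mem_of_isIntegral_int P (isIntegral_uVal W b hv))
  have hd : uVal W b ![0, 1] - uVal W b ![1, 0] ∈ P.nonunits ∧
      uVal W b ![1, 1] - uVal W b ![1, 0] ∈ P.nonunits := by
    rcases sl_two_cases _ (det_torsMat W b τ) with h | h | h | h | h | h <;> rw [h] at htr hmove
    iterate 4 exact absurd (by decide) htr
    · have h1 := hmove ![1, 0] (by decide)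
      have h2 := hmove ![0, 1] (by decide)
      rw [show !![0, 1; 1, 1] *ᵥ ![1, (0 : ZMod 2)] = ![0, 1] by decide] at h1
      rw [show !![0, 1; 1, 1] *ᵥ ![0, (1 : ZMod 2)] = ![1, 1] by decide] at h2
      exact ⟨h1, by simpa using P.nonunits.add_mem h1 h2⟩
    · have h1 := hmove ![1, 0] (by decide)
      have h2 := hmove ![1, 1] (by decide)
      rw [show !![1, 1; 1, 0] *ᵥ ![1, (0 : ZMod 2)] = ![1, 1] by decide] at h1
      rw [show !![1, 1; 1, 0] *ᵥ ![1, (1 : ZMod 2)] = ![0, 1] by decide] at h2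
      exact ⟨by simpa using P.nonunits.add_mem h1 h2, h1⟩
  obtain ⟨hs, hp, hdp⟩ := uVal_sum W b
  obtain ⟨A, hA⟩ : ∃ A : NumberField.RingOfIntegers Ω, (A : Ω) = uVal W b ![1, 0] :=
    ⟨⟨_, isIntegral_uVal W b (by decide)⟩, rfl⟩
  obtain ⟨B, hB'⟩ : ∃ B : NumberField.RingOfIntegers Ω, (B : Ω) = uVal W b ![0, 1] :=
    ⟨⟨_, isIntegral_uVal W b (by decide)⟩, rfl⟩
  obtain ⟨C, hC'⟩ : ∃ C : NumberField.RingOfIntegers Ω, (C : Ω) = uVal W b ![1, 1] :=
    ⟨⟨_, isIntegral_uVal W b (by decide)⟩, rfl⟩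
  have hB : B - A ∈ placeIdeal P := mem_placeIdeal.2 (by show (B : Ω) - (A : Ω) ∈ _; rw [hA, hB']; exact hd.1)
  have hC : C - A ∈ placeIdeal P := mem_placeIdeal.2 (by show (C : Ω) - (A : Ω) ∈ _; rw [hA, hC']; exact hd.2)
  have hcop : IsCoprime W.c₄ (256 * W.Δ) := by
    refine isCoprime_of_prime_dvd (fun h => hΔ (by linarith [h.2])) fun p hp hp4 hpΔ => ?_
    have hp' : p.natAbs.Prime := Int.prime_iff_natAbs_prime.1 hp
    refine hW p.natAbs hp' ?_ (Int.natAbs_dvd.2 hp4)
    rcases hp.dvd_or_dvd hpΔ with h | h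
    · have h' : p.natAbs ∣ 2 ^ 8 := by simpa using Int.natAbs_dvd_natAbs.2 h
      rw [(Nat.prime_dvd_prime_iff_eq hp' Nat.prime_two).1 (hp'.dvd_of_dvd_pow h')]
      exact h2
    · exact Int.natAbs_dvd.2 h
  have hc4 : (W.c₄ : NumberField.RingOfIntegers Ω) =
      (B - A) * (B - A) + (C - A) * (C - A) - (B - A) * (C - A) := by
    apply NumberField.RingOfIntegers.ext
    simp only [map_intCast, map_add, map_sub, map_mul, hA, hB', hC']
    rw [WeierstrassCurve.c₄]
    push_cast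
    linear_combination -((W.b₂ : Ω) - (uVal W b ![1, 0] + uVal W b ![0, 1] + uVal W b ![1, 1])) *
      hs - 3 * hp
  have hD : ((256 * W.Δ : ℤ) : NumberField.RingOfIntegers Ω) =
      (B - A) * ((B - A) * ((A - C) * (A - C) * ((B - C) * (B - C)))) := by
    apply NumberField.RingOfIntegers.ext
    simp only [map_intCast, map_sub, map_mul, hA, hB', hC']
    rw [← delta_sq W b, delta]
    ring
  obtain ⟨u, v, huv⟩ := hcop
  have h1 : ((u * W.c₄ + v * (256 * W.Δ) : ℤ) : NumberField.RingOfIntegers Ω) ∈ placeIdeal P := by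
    push_cast
    refine Ideal.add_mem _ (Ideal.mul_mem_left _ _ ?_) (Ideal.mul_mem_left _ _ ?_)
    · rw [hc4]
      exact Ideal.sub_mem _ (Ideal.add_mem _ (Ideal.mul_mem_left _ _ hB)
        (Ideal.mul_mem_left _ _ hC)) (Ideal.mul_mem_left _ _ hC)
    · have : ((256 * W.Δ : ℤ) : NumberField.RingOfIntegers Ω) ∈ placeIdeal P :=
        hD ▸ Ideal.mul_mem_right _ _ hB
      simpa using this
  rw [huv, Int.cast_one] at h1
  exact Ideal.IsPrime.ne_top inferInstance ((Ideal.eq_top_iff_one _).2 h1)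

/-- Inertia away from `D` fixes `√-D`. -/
theorem sqrt_fixed_of_inertia (hD : D % 4 = 3) {q : ℕ} (hq : q.Prime) (hqD : ¬ q ∣ D)
    (P : ValuationSubring Ω) (hP : P.LiesOverPrime q) {τ : GQ}
    (hτ : τ ∈ P.inertiaSubgroupIn ℚ) (x : Ω) (hx : x ^ 2 = -(D : Ω)) : τ x = x := by
  have hτx : τ x ^ 2 = -(D : Ω) := by rw [← map_pow, hx, map_neg, map_natCast]
  rcases sq_eq_sq_iff_eq_or_eq_neg.1 (hτx.trans hx.symm) with h | h
  · exact h
  exfalso
  obtain ⟨c, hc⟩ : ∃ c : ℕ, D + 1 = 4 * c := ⟨(D + 1) / 4, by omega⟩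
  have hint : _root_.IsIntegral ℤ ((1 + x) / 2) := by
    refine ⟨Polynomial.X ^ 2 - Polynomial.X + Polynomial.C (c : ℤ), by monicity!, ?_⟩
    rw [Polynomial.eval₂_add, Polynomial.eval₂_sub, Polynomial.eval₂_pow, Polynomial.eval₂_X,
      Polynomial.eval₂_C, eq_intCast, Int.cast_natCast]
    have hc' : (D : Ω) + 1 = 4 * (c : Ω) := by exact_mod_cast congrArg (fun z : ℕ => (z : Ω)) hc
    linear_combination (1 / 4 : Ω) * hx - (1 / 4 : Ω) * hc'
  have hm := ((mem_inertiaSubgroupIn_iff P τ).1 hτ).2 _ (mem_of_isIntegral_int P hint)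
  have hx' : -x ∈ P.nonunits := by
    convert hm using 1
    rw [map_div₀, map_add, map_one, map_ofNat, h]
    ring
  have hxint : _root_.IsIntegral ℤ (-x) := by
    refine _root_.IsIntegral.of_pow two_pos ?_
    rw [neg_sq, hx, show -(D : Ω) = algebraMap ℤ Ω (-(D : ℤ)) by simp]
    exact isIntegral_algebraMap
  obtain ⟨X, hX'⟩ : ∃ X : NumberField.RingOfIntegers Ω, (X : Ω) = -x := ⟨⟨-x, hxint⟩, rfl⟩
  have hX : X ∈ placeIdeal P := mem_placeIdeal.2 (hX'.symm ▸ hx')
  have hq' : ((q : ℤ) : NumberField.RingOfIntegers Ω) ∈ placeIdeal P := by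
    rw [mem_placeIdeal]
    show ((q : ℤ) : Ω) ∈ P.nonunits
    rw [Int.cast_natCast]
    exact hP
  have hD' : ((D : ℤ) : NumberField.RingOfIntegers Ω) ∈ placeIdeal P := by
    have : ((D : ℤ) : NumberField.RingOfIntegers Ω) = -(X * X) := by
      apply NumberField.RingOfIntegers.ext
      simp only [map_intCast, map_neg, map_mul, hX']
      rw [Int.cast_natCast]
      linear_combination hx
    rw [this]
    exact neg_mem (Ideal.mul_mem_left _ _ hX)
  obtain ⟨u, v, huv⟩ : IsCoprime (q : ℤ) (D : ℤ) := by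
    rw [Int.isCoprime_iff_gcd_eq_one, Int.gcd_natCast_natCast]
    exact (hq.coprime_iff_not_dvd).2 hqD
  have h1 : ((u * q + v * D : ℤ) : NumberField.RingOfIntegers Ω) ∈ placeIdeal P := by
    rw [Int.cast_add, Int.cast_mul, Int.cast_mul]
    exact Ideal.add_mem _ (Ideal.mul_mem_left _ _ hq') (Ideal.mul_mem_left _ _ hD')
  rw [huv, Int.cast_one] at h1
  exact Ideal.IsPrime.ne_top inferInstance ((Ideal.eq_top_iff_one _).2 h1)

/-- `E[2] ⊗ k` is a dihedral residual representation with trace `a_ℓ` at good primes. -/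
theorem exists_isDihedralResidual {k : Type} [Field k] [CharP k 2] (hW : W.IsSemistableModel)
    (hΔ : W.Δ ≠ 0) (h2 : (2 : ℤ) ∣ W.Δ) (hD : D % 8 = 3) (hsq : IsSquare (-W.Δ * D))
    (hroot : ∀ x : ℚ, twoCubic W x ≠ 0) :
    ∃ r : MRep k, TwoAdic.IsDihedralResidual D r ∧ IsCont r ∧
      (∃ b : Module.Basis (Fin 2) (ZMod 2) (Tors W),
        r = mapRep (ZMod.castHom dvd_rfl k) (torsMat W b)) ∧
      ∀ ℓ : ℕ, ℓ.Prime → W.IsGoodPrimeFor ℓ → ∀ P : ValuationSubring Ω, P.LiesOverPrime ℓ →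
        ∀ φ : GQ, P.IsFrobeniusAt φ ℓ → (r φ).trace = (W.apOfModel ℓ : k) := by
  obtain ⟨b⟩ := exists_basis W hΔ
  have hD0 : D ≠ 0 := by omega
  have hinj : Function.Injective (ZMod.castHom (dvd_refl 2) k) := RingHom.injective _
  have hminj : Function.Injective fun M : Matrix (Fin 2) (Fin 2) (ZMod 2) =>
      M.map (ZMod.castHom (dvd_refl 2) k) :=
    fun M N h => Matrix.ext fun i j => hinj (congrFun (congrFun h i) j)
  refine ⟨mapRep (ZMod.castHom dvd_rfl k) (torsMat W b), ⟨?_, ?_, ?_, ?_, ?_⟩, ?_, ⟨b, rfl⟩, ?_⟩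
  · have hrange : Set.range (torsMat W b) =
        ↑(Finset.univ.filter fun M : Matrix (Fin 2) (Fin 2) (ZMod 2) => M.det = 1) := by
      ext M
      simp only [Set.mem_range, Finset.coe_filter, Finset.mem_univ, true_and, Set.mem_ofPred_eq]
      exact ⟨fun ⟨σ, hσ⟩ => hσ ▸ det_torsMat W b σ, exists_torsMat_eq W b hΔ hD0 hsq hroot⟩
    rw [show (⇑(mapRep (ZMod.castHom dvd_rfl k) (torsMat W b))) =
        (fun M : Matrix (Fin 2) (Fin 2) (ZMod 2) => M.map (ZMod.castHom (dvd_refl 2) k)) ∘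
          torsMat W b from rfl, Set.range_comp, Set.ncard_image_of_injective _ hminj, hrange,
      Set.ncard_coe_finset]
    decide +kernel
  · intro σ
    rw [mapRep_apply]
    exact ((ZMod.castHom (dvd_refl 2) k).map_det _).symm.trans (by rw [det_torsMat, map_one])
  · intro σ
    rw [forall_sqrt_fixed_iff W b hΔ hD0 hsq σ, mapRep_apply]
    refine or_congr (not_congr ?_) ?_
    · rw [show ((torsMat W b σ).map (ZMod.castHom dvd_rfl k)).trace =
        ZMod.castHom dvd_rfl k (torsMat W b σ).trace from (AddMonoidHom.map_trace _ _).symm,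
        map_eq_zero_iff _ hinj]
    · rw [← hminj.eq_iff]
      simp only [Matrix.map_one _ (map_zero _) (map_one _)]
  · intro q hq hqD P hP τ hτ
    have h := (forall_sqrt_fixed_iff W b hΔ hD0 hsq τ).1
      (sqrt_fixed_of_inertia (by omega) hq hqD P hP hτ)
    rw [mapRep_apply, h.resolve_left (not_not.2 (trace_eq_zero_of_inertia W b hW hΔ h2 P hτ)),
      Matrix.map_one _ (map_zero _) (map_one _)]
  · intro ℓ _ _ P hP τ hτ
    have h : torsMat W b τ * torsMat W b τ = 1 :=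
      (show ∀ M : Matrix (Fin 2) (Fin 2) (ZMod 2), M.det = 1 → M.trace = 0 → M * M = 1 by
        decide +kernel) _ (det_torsMat W b τ) (trace_eq_zero_of_inertia W b hW hΔ h2 P hτ)
    rw [← map_mul, mapRep_apply, map_mul, h, Matrix.map_one _ (map_zero _) (map_one _)]
  · intro n
    refine ⟨IntermediateField.adjoin ℚ {uVal W b ![1, 0], uVal W b ![0, 1]}, ?_,
      fun σ hfix i j => ?_⟩
    · exact IntermediateField.finiteDimensional_adjoin fun x _ => Algebra.IsIntegral.isIntegral x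
    · have h1 : torsMat W b σ = 1 := by
        have e1 := apply_uVal W b σ ![1, 0]
        have e2 := apply_uVal W b σ ![0, 1]
        rw [hfix _ (IntermediateField.subset_adjoin _ _ (by simp))] at e1
        rw [hfix _ (IntermediateField.subset_adjoin _ _ (by simp))] at e2
        rcases sl_two_cases _ (det_torsMat W b σ) with h | h | h | h | h | h <;>
          rw [h] at e1 e2 ⊢
        · exact Matrix.one_fin_two.symm
        all_goals
          exfalso
          first
          | exact absurd (uVal_injective W b (by decide) (by decide) e1) (by decide)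
          | exact absurd (uVal_injective W b (by decide) (by decide) e2) (by decide)
      rw [mapRep_apply, h1, Matrix.map_one _ (map_zero _) (map_one _), sub_self]
      exact Submodule.zero_mem _
  · intro ℓ hℓ hg P hP φ hφ
    have : Fact ℓ.Prime := ⟨hℓ⟩
    have : Fact (Nat.Prime 2) := ⟨Nat.prime_two⟩
    have hne : ℓ ≠ 2 := by rintro rfl; exact hg h2
    have h := EllFrobenius.galoisTrace_eq_apOfModel W ℓ 2 hne hg P φ hP hφ
    rw [Affine.Point.galoisTrace_def, LinearMap.trace_eq_matrix_trace (ZMod 2) b] at h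
    rw [mapRep_apply, torsMat_apply,
      show ((LinearMap.toMatrix b b (Affine.Point.galoisRepModuleEnd ℚ (ratCurve W).toAffine 2 φ)).map
        (ZMod.castHom dvd_rfl k)).trace = ZMod.castHom dvd_rfl k (LinearMap.toMatrix b b
        (Affine.Point.galoisRepModuleEnd ℚ (ratCurve W).toAffine 2 φ)).trace
        from (AddMonoidHom.map_trace _ _).symm, h, map_intCast]

end Fermat.Agent.DihedralGlue
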