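import Mathlib
import Fermat.Agent.CFT.Basic

/-!
# Decomposition of primes in extensions of prime degree

Primes in a Galois extension of number fields of prime degree, without residue degrees: split
primes have no residue extension, non-split ones are fixed by the Galois group, and ramified ones
are inert under it.
-/

namespace Fermat.Agent.DihedralGlue

open NumberField IsDedekindDomain Module Fermat.Agent.CFT
open scoped Pointwise

variable {K L : Type} [Field K] [NumberField K] [Field L] [NumberField L] [Algebra K L]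
  [IsGalois K L] {p : ℕ}

omit [NumberField K] [NumberField L] in
theorem natCard_gal_eq (hdeg : finrank K L = p) [FiniteDimensional K L] :
    Nat.card Gal(L/K) = p := by
  rw [IsGalois.card_aut_eq_finrank, hdeg]

theorem smul_eq_of_isNonSplit {v : HeightOneSpectrum (𝓞 K)} (h : IsNonSplit K L v)
    (w : HeightOneSpectrum (𝓞 L)) (hw : w.asIdeal.under (𝓞 K) = v.asIdeal) (σ : Gal(L/K)) :
    σ • w.asIdeal = w.asIdeal := by
  have hp : (σ • w.asIdeal).IsPrime := inferInstance
  have hne : σ • w.asIdeal ≠ ⊥ := fun h0 => w.ne_bot <| by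
    rw [← inv_smul_smul σ w.asIdeal, h0, Ideal.smul_bot]
  let w' : HeightOneSpectrum (𝓞 L) := ⟨σ • w.asIdeal, hp, hne⟩
  have : w'.asIdeal.under (𝓞 K) = v.asIdeal := by
    show (σ • w.asIdeal).under (𝓞 K) = v.asIdeal
    rw [Ideal.under_smul, hw]
  exact congrArg HeightOneSpectrum.asIdeal (h w' w this hw)

/-- The stabiliser of a split prime is trivial. -/
theorem stabilizer_eq_bot_of_split (hp : p.Prime) (hdeg : finrank K L = p)
    {v : HeightOneSpectrum (𝓞 K)} (h : ¬ IsNonSplit K L v)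
    (w : HeightOneSpectrum (𝓞 L)) (hw : w.asIdeal.under (𝓞 K) = v.asIdeal) :
    MulAction.stabilizer Gal(L/K) w.asIdeal = ⊥ := by
  have : Fact (Nat.card Gal(L/K)).Prime := ⟨by rw [natCard_gal_eq hdeg]; exact hp⟩
  refine ((MulAction.stabilizer Gal(L/K) w.asIdeal).eq_bot_or_eq_top_of_prime_card).resolve_right
    fun htop => h fun w₁ w₂ h₁ h₂ => ?_
  have hfix : ∀ u : HeightOneSpectrum (𝓞 L), u.asIdeal.under (𝓞 K) = v.asIdeal → u = w := by
    intro u hu
    obtain ⟨g, hg⟩ := Algebra.IsInvariant.exists_smul_of_under_eq (𝓞 K) (𝓞 L) Gal(L/K)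
      w.asIdeal u.asIdeal (hw.trans hu.symm)
    have : g ∈ MulAction.stabilizer Gal(L/K) w.asIdeal := htop ▸ Subgroup.mem_top g
    exact HeightOneSpectrum.ext (hg.trans (MulAction.mem_stabilizer_iff.1 this))
  rw [hfix w₁ h₁, hfix w₂ h₂]

/-- At a split prime the residue field does not grow. -/
theorem exists_sub_mem_of_split (hp : p.Prime) (hdeg : finrank K L = p)
    {v : HeightOneSpectrum (𝓞 K)} (h : ¬ IsNonSplit K L v)
    (w : HeightOneSpectrum (𝓞 L)) (hw : w.asIdeal.under (𝓞 K) = v.asIdeal) (x : 𝓞 L) :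
    ∃ y : 𝓞 K, x - algebraMap (𝓞 K) (𝓞 L) y ∈ w.asIdeal := by
  classical
  have hstab := stabilizer_eq_bot_of_split hp hdeg h w hw
  have hne : ∀ σ : Gal(L/K), σ ≠ 1 → σ • w.asIdeal ≠ w.asIdeal := fun σ hσ h' =>
    hσ (by rwa [← MulAction.mem_stabilizer_iff, hstab, Subgroup.mem_bot] at h')
  let J : Ideal (𝓞 L) := ∏ σ ∈ Finset.univ.erase (1 : Gal(L/K)), σ • w.asIdeal
  have hco : w.asIdeal ⊔ J = ⊤ := Ideal.sup_prod_eq_top fun σ hσ => by
    have : (σ • w.asIdeal).IsPrime := inferInstance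
    have hm : (σ • w.asIdeal).IsMaximal := this.isMaximal fun h0 => w.ne_bot <| by
      rw [← inv_smul_smul σ w.asIdeal, h0, Ideal.smul_bot]
    exact w.isMaximal.coprime_of_ne hm (Ne.symm (hne σ (Finset.mem_erase.1 hσ).1))
  obtain ⟨i, hi, j, hj, hij⟩ := Submodule.mem_sup.1 ((hco ▸ Submodule.mem_top : x ∈ w.asIdeal ⊔ J))
  obtain ⟨y, hy⟩ := Algebra.IsInvariant.isInvariant (A := 𝓞 K) (G := Gal(L/K))
    (∑ σ : Gal(L/K), σ • j) (fun g => by
      rw [Finset.smul_sum]
      exact Fintype.sum_equiv (Equiv.mulLeft g) _ _ fun σ => by simp [mul_smul])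
  refine ⟨y, ?_⟩
  rw [hy, ← Finset.add_sum_erase _ _ (Finset.mem_univ (1 : Gal(L/K))), one_smul, ← sub_sub,
    ← hij, add_sub_cancel_right]
  refine w.asIdeal.sub_mem hi (Ideal.sum_mem _ fun σ hσ => ?_)
  have hj' : j ∈ σ⁻¹ • w.asIdeal := by
    refine (Ideal.le_of_dvd (Finset.dvd_prod_of_mem (fun τ : Gal(L/K) => τ • w.asIdeal)
      (Finset.mem_erase.2 ⟨?_, Finset.mem_univ _⟩))) hj
    exact inv_ne_one.2 (Finset.mem_erase.1 hσ).1
  exact Ideal.mem_inv_pointwise_smul_iff.1 hj'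

/-- A ramified prime is fixed pointwise modulo itself. -/
theorem smul_sub_mem_of_ramified (hp : p.Prime) (hdeg : finrank K L = p)
    (w : HeightOneSpectrum (𝓞 L)) (h : w.asIdeal.ramificationIdx (𝓞 K) ≠ 1) (σ : Gal(L/K))
    (x : 𝓞 L) : σ • x - x ∈ w.asIdeal := by
  have : Fact (Nat.card Gal(L/K)).Prime := ⟨by rw [natCard_gal_eq hdeg]; exact hp⟩
  set q := w.asIdeal.under (𝓞 K) with hq
  have : w.asIdeal.LiesOver q := ⟨rfl⟩
  have hq0 : q ≠ ⊥ := Ideal.IsIntegral.comap_ne_bot (𝓞 K) w.ne_bot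
  have : q.IsMaximal := (Ideal.IsPrime.under (𝓞 K) w.asIdeal).isMaximal hq0
  have : Finite (𝓞 K ⧸ q) := Ideal.finiteQuotientOfFreeOfNeBot q hq0
  have : PerfectField q.ResidueField :=
    have : Finite q.ResidueField := Finite.of_equiv _ (RingEquiv.ofBijective _
      (Ideal.bijective_algebraMap_quotient_residueField q)).toEquiv
    PerfectField.ofFinite
  have hcard := Ideal.card_inertia_eq_ramificationIdxIn (G := Gal(L/K)) q w.asIdeal
  rw [Ideal.ramificationIdxIn_eq_ramificationIdx q w.asIdeal Gal(L/K)] at hcard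
  have htop := ((w.asIdeal.inertia Gal(L/K)).eq_bot_or_eq_top_of_prime_card).resolve_left
    fun hbot => h (by rw [← hcard, hbot, Subgroup.card_bot])
  have hσ : σ ∈ w.asIdeal.inertia Gal(L/K) := htop ▸ Subgroup.mem_top σ
  exact hσ x

end Fermat.Agent.DihedralGlue
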