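import Fermat.Agent.DihedralGlue.Parity
import Fermat.Agent.DihedralGlue.Split
import Fermat.Agent.Dihedral.Primes
import Fermat.Agent.Dihedral.IdealCount

/-!
# The cubic field of the two-division polynomial

The cubic field of the two-division cubic over `K = ℚ(√Δ)`: it is cyclic of degree `3`, everywhere
unramified, and its class character detects the roots of the cubic modulo good primes.
-/

noncomputable section

namespace Fermat.Agent.DihedralGlue

open NumberField IsDedekindDomain Module Polynomial Fermat.Agent.CFT Fermat.Agent.Dihedral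
open scoped nonZeroDivisors Pointwise IntermediateField

/-- The monic two-division cubic as a polynomial. -/
def twoPoly (W : WeierstrassCurve ℤ) (R : Type*) [CommRing R] : R[X] :=
  (Cubic.mk 1 (W.b₂ : R) (8 * (W.b₄ : R)) (16 * (W.b₆ : R))).toPoly

theorem eval_twoPoly (W : WeierstrassCurve ℤ) {R : Type*} [CommRing R] (x : R) :
    (twoPoly W R).eval x = twoCubic W x := by
  simp [twoPoly, Cubic.toPoly, twoCubic]

theorem monic_twoPoly (W : WeierstrassCurve ℤ) (R : Type*) [CommRing R] : (twoPoly W R).Monic :=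
  Cubic.monic_of_a_eq_one rfl

theorem natDegree_twoPoly (W : WeierstrassCurve ℤ) (R : Type*) [CommRing R] [Nontrivial R] :
    (twoPoly W R).natDegree = 3 := Cubic.natDegree_of_a_ne_zero (by simp)

theorem map_twoPoly (W : WeierstrassCurve ℤ) {R S : Type*} [CommRing R] [CommRing S]
    (φ : R →+* S) : (twoPoly W R).map φ = twoPoly W S := by
  simp [twoPoly, Cubic.toPoly, map_ofNat]

theorem irreducible_twoPoly (W : WeierstrassCurve ℤ) {F : Type*} [Field F]
    (h : ∀ x : F, twoCubic W x ≠ 0) : Irreducible (twoPoly W F) := by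
  rw [(monic_twoPoly W F).irreducible_iff_roots_eq_zero_of_degree_le_three
    (by rw [natDegree_twoPoly]; norm_num) (by rw [natDegree_twoPoly]),
    Multiset.eq_zero_iff_forall_notMem]
  intro x hx
  rw [mem_roots (monic_twoPoly W F).ne_zero, IsRoot, eval_twoPoly] at hx
  exact h x hx

/-- An element of a field of degree less than `3` is not a root of an irreducible cubic. -/
theorem twoCubic_ne_zero_of_finrank (W : WeierstrassCurve ℤ) {F E : Type*} [Field F] [Field E]
    [Algebra F E] [FiniteDimensional F E] (hE : finrank F E < 3)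
    (h : ∀ x : F, twoCubic W x ≠ 0) (y : E) : twoCubic W y ≠ 0 := by
  intro hy
  have hev : aeval y (twoPoly W F) = 0 := by
    rw [aeval_def, ← eval_map, map_twoPoly, eval_twoPoly, hy]
  have := minpoly.eq_of_irreducible_of_monic (irreducible_twoPoly W h) hev (monic_twoPoly W F)
  have h3 := minpoly.natDegree_le (A := F) y
  rw [← this, natDegree_twoPoly] at h3
  omega

variable (W : WeierstrassCurve ℤ) (K : Type) [Field K] [NumberField K]

/-- The splitting field of the two-division cubic over `K`. -/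
abbrev CubicField : Type := (twoPoly W K).SplittingField

instance : CharZero (CubicField W K) :=
  charZero_of_injective_algebraMap (algebraMap K (CubicField W K)).injective

instance : NumberField (CubicField W K) :=
  NumberField.of_module_finite K (CubicField W K)

variable [IsImagQuadratic K]

theorem twoCubic_ne_zero_K (hroot : ∀ x : ℚ, twoCubic W x ≠ 0) (y : K) : twoCubic W y ≠ 0 :=
  twoCubic_ne_zero_of_finrank W (by rw [IsImagQuadratic.finrank_eq]; norm_num) hroot y

/-- The cubic field is Galois over the quadratic field. -/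
theorem isGalois_cubicField (hroot : ∀ x : ℚ, twoCubic W x ≠ 0) : IsGalois K (CubicField W K) :=
  IsGalois.of_separable_splitting_field
    (irreducible_twoPoly W (twoCubic_ne_zero_K W K hroot)).separable

theorem exists_roots (hroot : ∀ x : ℚ, twoCubic W x ≠ 0) (hΔ : W.Δ ≠ 0) :
    ∃ a b c : CubicField W K, a ≠ b ∧ a ≠ c ∧ b ≠ c ∧
      -(W.b₂ : CubicField W K) = a + b + c ∧
      8 * (W.b₄ : CubicField W K) = a * b + a * c + b * c ∧
      -(16 * (W.b₆ : CubicField W K)) = a * b * c ∧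
      (∀ u : CubicField W K, twoCubic W u = (u - a) * (u - b) * (u - c)) := by
  classical
  have hsep := (irreducible_twoPoly W (twoCubic_ne_zero_K W K hroot)).separable
  have hsplit := SplittingField.splits (twoPoly W K)
  have hcard := card_rootSet_eq_natDegree hsep hsplit
  rw [natDegree_twoPoly] at hcard
  obtain ⟨⟨a, ha⟩, ⟨b, hb⟩, hab⟩ := Fintype.exists_pair_of_one_lt_card
    (α := (twoPoly W K).rootSet (CubicField W K)) (by
      rw [← Nat.card_eq_fintype_card, Nat.card_eq_fintype_card]; convert (show 1 < 3 by norm_num))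
  have hev : ∀ u ∈ (twoPoly W K).rootSet (CubicField W K), twoCubic W u = 0 := fun u hu => by
    have h := (mem_rootSet.1 hu).2
    rwa [aeval_def, ← eval_map, map_twoPoly, eval_twoPoly] at h
  have hne : a ≠ b := fun h => hab (Subtype.ext h)
  have hfac := twoCubic_eq_mul W hne (hev a ha) (hev b hb)
  set c := -(W.b₂ : CubicField W K) - a - b
  have h0 := hfac 0
  have h1 := hfac 1
  simp only [twoCubic] at h0 h1
  have hs : -(W.b₂ : CubicField W K) = a + b + c := by ring
  have hp : 8 * (W.b₄ : CubicField W K) = a * b + a * c + b * c := by linear_combination h1 - h0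
  have hd : -(16 * (W.b₆ : CubicField W K)) = a * b * c := by linear_combination -h0
  obtain ⟨-, hac, hbc⟩ := discr_ne_zero_of_mul W
    (by exact_mod_cast mul_ne_zero (show (256 : ℤ) ≠ 0 by norm_num) hΔ) hs hp hd
  exact ⟨a, b, c, hne, hac, hbc, hs, hp, hd, hfac⟩

/-- The cubic field has degree 3 over the quadratic field. -/
theorem finrank_cubicField (hroot : ∀ x : ℚ, twoCubic W x ≠ 0) (hΔ : W.Δ ≠ 0) {s : K}
    (hs : s ^ 2 = (256 * W.Δ : ℤ)) : finrank K (CubicField W K) = 3 := by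
  classical
  obtain ⟨a, b, c, hab, hac, hbc, hsum, hp, hd, hfac⟩ := exists_roots W K hroot hΔ
  have hD : algebraMap K (CubicField W K) s ^ 2 = ((a - b) * (a - c) * (b - c)) ^ 2 := by
    rw [← map_pow, hs, map_intCast]
    have h := congrArg (fun z : ℤ => (z : CubicField W K)) (twoCubic_discr W)
    push_cast at h ⊢
    rw [← h, show (W.b₂ : CubicField W K) = -(a + b + c) by linear_combination -hsum, hp,
      show 16 * (W.b₆ : CubicField W K) = -(a * b * c) by linear_combination -hd]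
    ring
  have haA : a ∈ K⟮a⟯ := IntermediateField.mem_adjoin_simple_self K a
  have hint : ∀ z : ℤ, (z : CubicField W K) ∈ K⟮a⟯ := intCast_mem _
  have hbc' : b + c ∈ K⟮a⟯ := by
    rw [show b + c = -(W.b₂ : CubicField W K) - a by linear_combination -hsum]
    exact sub_mem (neg_mem (hint _)) haA
  have hsA : algebraMap K (CubicField W K) s ∈ K⟮a⟯ := IntermediateField.algebraMap_mem _ _
  have hden : (a - b) * (a - c) ∈ K⟮a⟯ := by
    rw [show (a - b) * (a - c) = 3 * a * a + 2 * (W.b₂ : CubicField W K) * a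
        + 8 * (W.b₄ : CubicField W K) by
      rw [hp, show (W.b₂ : CubicField W K) = -(a + b + c) by linear_combination -hsum]; ring]
    refine add_mem (add_mem ?_ ?_) ?_
    · exact mul_mem (mul_mem (natCast_mem _ 3) haA) haA
    · exact mul_mem (mul_mem (natCast_mem _ 2) (hint _)) haA
    · exact mul_mem (natCast_mem _ 8) (hint _)
  have hden0 : (a - b) * (a - c) ≠ 0 := mul_ne_zero (sub_ne_zero.2 hab) (sub_ne_zero.2 hac)
  have hdiff : b - c ∈ K⟮a⟯ := by
    have : b - c = algebraMap K (CubicField W K) s / ((a - b) * (a - c)) ∨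
        b - c = -algebraMap K (CubicField W K) s / ((a - b) * (a - c)) := by
      rcases sq_eq_sq_iff_eq_or_eq_neg.1 hD with h | h
      · exact Or.inl (by rw [h]; field_simp)
      · exact Or.inr (by rw [h]; field_simp)
    rcases this with h | h <;> rw [h]
    exacts [div_mem hsA hden, div_mem (neg_mem hsA) hden]
  have hb : b ∈ K⟮a⟯ := by
    have := div_mem (add_mem hbc' hdiff) (natCast_mem _ 2)
    simpa using (show (b + c + (b - c)) / ((2 : ℕ) : CubicField W K) = b by push_cast; ring) ▸ this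
  have hc : c ∈ K⟮a⟯ := by simpa using sub_mem hbc' hb
  have htop : K⟮a⟯ = ⊤ := by
    rw [eq_top_iff]
    intro z _
    have hz : z ∈ Algebra.adjoin K ((twoPoly W K).rootSet (CubicField W K)) := by
      rw [SplittingField.adjoin_rootSet]; exact Algebra.mem_top
    refine (Algebra.adjoin_le (S := K⟮a⟯.toSubalgebra) fun u hu => ?_) hz
    have h := (mem_rootSet.1 hu).2
    rw [aeval_def, ← eval_map, map_twoPoly, eval_twoPoly, hfac, mul_eq_zero, mul_eq_zero,
      sub_eq_zero, sub_eq_zero, sub_eq_zero] at h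
    rcases h with (rfl | rfl) | rfl <;> assumption
  have hai : IsIntegral K a := Algebra.IsIntegral.isIntegral a
  have hmin : minpoly K a = twoPoly W K := by
    refine (minpoly.eq_of_irreducible_of_monic (irreducible_twoPoly W
      (twoCubic_ne_zero_K W K hroot)) ?_ (monic_twoPoly W K)).symm
    rw [aeval_def, ← eval_map, map_twoPoly, eval_twoPoly, hfac]; ring
  rw [← IntermediateField.finrank_top' (F := K) (E := CubicField W K), ← htop,
    IntermediateField.adjoin.finrank hai, hmin, natDegree_twoPoly]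

/-- All roots are conjugate. -/
theorem exists_smul_root (hroot : ∀ x : ℚ, twoCubic W x ≠ 0) {x y : CubicField W K}
    (hx : twoCubic W x = 0) (hy : twoCubic W y = 0) :
    ∃ σ : Gal((CubicField W K)/K), σ x = y := by
  have := isGalois_cubicField W K hroot
  have hm : ∀ u : CubicField W K, twoCubic W u = 0 → minpoly K u = twoPoly W K := fun u hu =>
    (minpoly.eq_of_irreducible_of_monic (irreducible_twoPoly W (twoCubic_ne_zero_K W K hroot))
      (by rw [aeval_def, ← eval_map, map_twoPoly, eval_twoPoly, hu]) (monic_twoPoly W K)).symm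
  obtain ⟨σ, hσ⟩ := MulAction.mem_orbit_iff.1
    ((Normal.minpoly_eq_iff_mem_orbit (CubicField W K)).1 ((hm y hy).trans (hm x hx).symm))
  exact ⟨σ, hσ⟩

theorem exists_integral_roots (hroot : ∀ x : ℚ, twoCubic W x ≠ 0) (hΔ : W.Δ ≠ 0) :
    ∃ a b c : 𝓞 (CubicField W K),
      -(W.b₂ : 𝓞 (CubicField W K)) = a + b + c ∧
      8 * (W.b₄ : 𝓞 (CubicField W K)) = a * b + a * c + b * c ∧
      (256 * W.Δ : ℤ) = ((a - b) * (a - c) * (b - c)) ^ 2 ∧
      twoCubic W a = 0 ∧ twoCubic W b = 0 ∧ twoCubic W c = 0 ∧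
      (∀ u : 𝓞 (CubicField W K), twoCubic W u = (u - a) * (u - b) * (u - c)) := by
  obtain ⟨a, b, c, -, -, -, hs, hp, hd, hfac⟩ := exists_roots W K hroot hΔ
  have hint : ∀ x : CubicField W K, twoCubic W x = 0 → IsIntegral ℤ x := fun x hx =>
    ⟨twoPoly W ℤ, monic_twoPoly W ℤ, by rw [← eval_map, map_twoPoly, eval_twoPoly, hx]⟩
  have ha : twoCubic W a = 0 := by rw [hfac]; ring
  have hb : twoCubic W b = 0 := by rw [hfac]; ring
  have hc : twoCubic W c = 0 := by rw [hfac]; ring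
  have hinj := RingOfIntegers.coe_injective (K := CubicField W K)
  obtain ⟨A, rfl⟩ : ∃ A : 𝓞 (CubicField W K), (A : CubicField W K) = a := ⟨⟨a, hint a ha⟩, rfl⟩
  obtain ⟨B, rfl⟩ : ∃ B : 𝓞 (CubicField W K), (B : CubicField W K) = b := ⟨⟨b, hint b hb⟩, rfl⟩
  obtain ⟨C, rfl⟩ : ∃ C : 𝓞 (CubicField W K), (C : CubicField W K) = c := ⟨⟨c, hint c hc⟩, rfl⟩
  refine ⟨A, B, C, hinj ?_, hinj ?_, hinj ?_, hinj ?_, hinj ?_, hinj ?_, fun u => hinj ?_⟩
  · simpa using hs
  · simpa [map_ofNat] using hp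
  · have h := congrArg (fun z : ℤ => (z : CubicField W K)) (twoCubic_discr W)
    simp only [map_intCast, map_pow, map_mul, map_sub]
    push_cast at h ⊢
    rw [← h, show (W.b₂ : CubicField W K) = -((A : CubicField W K) + B + C) by linear_combination -hs, hp,
      show 16 * (W.b₆ : CubicField W K) = -((A : CubicField W K) * B * C) by linear_combination -hd]
    ring
  · rw [map_twoCubic, map_zero]; exact ha
  · rw [map_twoCubic, map_zero]; exact hb
  · rw [map_twoCubic, map_zero]; exact hc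
  · rw [map_twoCubic, hfac]; simp

variable {W K}

omit [IsImagQuadratic K] in
theorem eq_one_mem_of_coprime {R : Type*} [CommRing R] {I : Ideal R} (hI : I ≠ ⊤) {m n : ℤ}
    (h : IsCoprime m n) (hm : (m : R) ∈ I) (hn : (n : R) ∈ I) : False := by
  obtain ⟨u, v, huv⟩ := h
  refine hI ((Ideal.eq_top_iff_one I).2 ?_)
  have : ((u * m + v * n : ℤ) : R) ∈ I := by
    push_cast
    exact I.add_mem (I.mul_mem_left _ hm) (I.mul_mem_left _ hn)
  simpa [huv] using this

/-- The cubic field is everywhere unramified over `K`. -/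
theorem ramificationIdx_eq_one (hroot : ∀ x : ℚ, twoCubic W x ≠ 0) (hΔ : W.Δ ≠ 0)
    (h2 : (2 : ℤ) ∣ W.Δ) (hW : W.IsSemistableModel) {s : K} (hs : s ^ 2 = (256 * W.Δ : ℤ))
    (w : HeightOneSpectrum (𝓞 (CubicField W K))) :
    w.asIdeal.ramificationIdx (𝓞 K) = 1 := by
  by_contra hne
  have := isGalois_cubicField W K hroot
  have hdeg := finrank_cubicField W K hroot hΔ hs
  obtain ⟨a, b, c, hsum, hp, hD, ha, hb, hc, -⟩ := exists_integral_roots W K hroot hΔ
  have hcong : ∀ y : 𝓞 (CubicField W K), twoCubic W y = 0 → y - a ∈ w.asIdeal := by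
    intro y hy
    obtain ⟨σ, hσ⟩ := exists_smul_root W K hroot (x := (a : CubicField W K))
      (y := (y : CubicField W K)) (by rw [← map_twoCubic, ha, map_zero])
      (by rw [← map_twoCubic, hy, map_zero])
    have : σ • a = y := RingOfIntegers.ext hσ
    exact this ▸ smul_sub_mem_of_ramified Nat.prime_three hdeg w hne σ a
  have hba := hcong b hb
  have hca := hcong c hc
  have hcop : IsCoprime W.c₄ (256 * W.Δ) := by
    refine isCoprime_of_prime_dvd (fun h => hΔ (by linarith [h.2])) fun q hq hq4 hqΔ => ?_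
    have hq' : q.natAbs.Prime := Int.prime_iff_natAbs_prime.1 hq
    have key : ∀ ℓ : ℕ, ℓ.Prime → (ℓ : ℤ) ∣ W.Δ → (ℓ : ℤ) ∣ W.c₄ → False :=
      fun ℓ hℓ hd => hW ℓ hℓ hd
    refine key q.natAbs hq' ?_ (Int.natAbs_dvd.2 hq4)
    rcases hq.dvd_or_dvd hqΔ with h | h
    · have h' : q.natAbs ∣ 2 ^ 8 := by simpa using Int.natAbs_dvd_natAbs.2 h
      rw [(Nat.prime_dvd_prime_iff_eq hq' Nat.prime_two).1 (hq'.dvd_of_dvd_pow h')]
      exact h2
    · exact Int.natAbs_dvd.2 h
  refine eq_one_mem_of_coprime w.isPrime.ne_top hcop ?_ ?_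
  · have : (W.c₄ : 𝓞 (CubicField W K)) =
        (b - a) ^ 2 + (c - a) ^ 2 - (b - a) * (c - a) := by
      rw [WeierstrassCurve.c₄]
      push_cast
      linear_combination -((W.b₂ : 𝓞 (CubicField W K)) - (a + b + c)) * hsum - 3 * hp
    rw [this, sq, sq]
    exact sub_mem (add_mem (w.asIdeal.mul_mem_left _ hba) (w.asIdeal.mul_mem_left _ hca))
      (w.asIdeal.mul_mem_left _ hca)
  · rw [hD, sq]
    refine w.asIdeal.mul_mem_left _ (w.asIdeal.mul_mem_right _ (w.asIdeal.mul_mem_right _ ?_))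
    rw [← neg_sub]
    exact neg_mem hba

omit [IsImagQuadratic K] in
theorem exists_over (v : HeightOneSpectrum (𝓞 K)) :
    ∃ w : HeightOneSpectrum (𝓞 (CubicField W K)), w.asIdeal.under (𝓞 K) = v.asIdeal := by
  obtain ⟨Q, hQm, hQ⟩ :=
    Ideal.exists_maximal_ideal_liesOver_of_isIntegral (S := 𝓞 (CubicField W K)) v.asIdeal
  have hne : Q ≠ ⊥ := by
    rintro rfl
    refine v.ne_bot ?_
    rw [hQ.over, Ideal.under_bot]
  exact ⟨⟨Q, hQm.isPrime, hne⟩, hQ.over.symm⟩

/-- A root modulo `ℓ` splits the primes above `ℓ`. -/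
theorem not_isNonSplit_of_root (hroot : ∀ x : ℚ, twoCubic W x ≠ 0) (hΔ : W.Δ ≠ 0) {ℓ : ℕ}
    (hℓ : ℓ.Prime) (h2 : ℓ ≠ 2) (hg : W.IsGoodPrimeFor ℓ) (hr : ∃ r : ZMod ℓ, twoCubic W r = 0)
    {v : HeightOneSpectrum (𝓞 K)} (hv : (ℓ : 𝓞 K) ∈ v.asIdeal) :
    ¬ IsNonSplit K (CubicField W K) v := by
  intro hns
  have := isGalois_cubicField W K hroot
  have : Fact ℓ.Prime := ⟨hℓ⟩
  obtain ⟨w, hw⟩ := exists_over (W := W) v
  obtain ⟨a, b, c, -, -, hD, ha, hb, hc, hfac⟩ := exists_integral_roots W K hroot hΔ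
  have hℓw : (ℓ : 𝓞 (CubicField W K)) ∈ w.asIdeal := by
    have : (ℓ : 𝓞 K) ∈ w.asIdeal.under (𝓞 K) := hw ▸ hv
    simpa [Ideal.under, Ideal.mem_comap] using this
  obtain ⟨r, hr⟩ := hr
  have hn : twoCubic W ((r.val : ℤ) : 𝓞 (CubicField W K)) ∈ w.asIdeal := by
    have h0 : ((twoCubic W (r.val : ℤ) : ℤ) : ZMod ℓ) = 0 := by
      rw [← eq_intCast (Int.castRingHom (ZMod ℓ)), map_twoCubic, eq_intCast, Int.cast_natCast,
        ZMod.natCast_zmod_val, hr]
    obtain ⟨k, hk⟩ := (ZMod.intCast_zmod_eq_zero_iff_dvd _ ℓ).1 h0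
    rw [← eq_intCast (Int.castRingHom (𝓞 (CubicField W K))), ← map_twoCubic, hk, eq_intCast,
      Int.cast_mul, Int.cast_natCast]
    exact w.asIdeal.mul_mem_right _ hℓw
  have hfix : ∀ x y : 𝓞 (CubicField W K), twoCubic W x = 0 → twoCubic W y = 0 →
      ((r.val : ℤ) : 𝓞 (CubicField W K)) - x ∈ w.asIdeal → x - y ∈ w.asIdeal := by
    intro x y hx hy hmem
    obtain ⟨σ, hσ⟩ := exists_smul_root W K hroot (x := (x : CubicField W K))
      (y := (y : CubicField W K)) (by rw [← map_twoCubic, hx, map_zero])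
      (by rw [← map_twoCubic, hy, map_zero])
    have hσ' : σ • x = y := RingOfIntegers.ext hσ
    have h := Ideal.smul_mem_pointwise_smul σ _ _ hmem
    rw [smul_eq_of_isNonSplit hns w hw σ, smul_sub, hσ',
      show σ • ((r.val : ℤ) : 𝓞 (CubicField W K)) = ((r.val : ℤ) : 𝓞 (CubicField W K)) from
        map_intCast (MulSemiringAction.toRingHom _ (𝓞 (CubicField W K)) σ) _] at h
    simpa using sub_mem h hmem
  have hcop : IsCoprime ((ℓ : ℕ) : ℤ) (256 * W.Δ) := by
    rw [(Nat.prime_iff_prime_int.1 hℓ).coprime_iff_not_dvd]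
    intro h
    rcases (Nat.prime_iff_prime_int.1 hℓ).dvd_or_dvd h with h | h
    · have h' : ℓ ∣ 2 ^ 8 := by exact_mod_cast h
      exact h2 ((Nat.prime_dvd_prime_iff_eq hℓ Nat.prime_two).1 (hℓ.dvd_of_dvd_pow h'))
    · exact hg h
  refine eq_one_mem_of_coprime w.isPrime.ne_top hcop (by exact_mod_cast hℓw) ?_
  rw [hD, sq]
  rw [hfac] at hn
  refine w.asIdeal.mul_mem_left _ (w.asIdeal.mul_mem_right _ (w.asIdeal.mul_mem_right _ ?_))
  rcases w.isPrime.mem_or_mem hn with h | h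
  · rcases w.isPrime.mem_or_mem h with h | h
    · exact hfix a b ha hb h
    · exact neg_sub b a ▸ neg_mem (hfix b a hb ha h)
  · have h1 := hfix c a hc ha h
    have h2 := hfix c b hc hb h
    simpa using sub_mem h2 h1

/-- A split prime above `ℓ` of degree at most `2` gives a root modulo `ℓ`. -/
theorem exists_root_of_not_isNonSplit (hroot : ∀ x : ℚ, twoCubic W x ≠ 0) (hΔ : W.Δ ≠ 0) {s : K}
    (hs : s ^ 2 = (256 * W.Δ : ℤ)) {ℓ : ℕ} (hℓ : ℓ.Prime) {v : HeightOneSpectrum (𝓞 K)} {f : ℕ}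
    (hv : Ideal.absNorm v.asIdeal = ℓ ^ f) (hf : f < 3)
    (hsp : ¬ IsNonSplit K (CubicField W K) v) : ∃ r : ZMod ℓ, twoCubic W r = 0 := by
  classical
  have := isGalois_cubicField W K hroot
  have : Fact ℓ.Prime := ⟨hℓ⟩
  by_contra hno
  push Not at hno
  obtain ⟨w, hw⟩ := exists_over (W := W) v
  obtain ⟨a, -, -, -, -, -, ha, -, -, -⟩ := exists_integral_roots W K hroot hΔ
  obtain ⟨y, hy⟩ := exists_sub_mem_of_split Nat.prime_three
    (finrank_cubicField W K hroot hΔ hs) hsp w hw a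
  have hgy : twoCubic W y ∈ v.asIdeal := by
    rw [← hw, Ideal.under, Ideal.mem_comap, map_twoCubic, ← Ideal.Quotient.eq_zero_iff_mem,
      map_twoCubic, ← Ideal.Quotient.eq.2 hy, ← map_twoCubic, ha, map_zero]
  have hcard : Nat.card (𝓞 K ⧸ v.asIdeal) = ℓ ^ f := by
    rw [← hv, Ideal.absNorm_apply, Submodule.cardQuot_apply]
  let _ : Field (𝓞 K ⧸ v.asIdeal) := Ideal.Quotient.field v.asIdeal
  have : Finite (𝓞 K ⧸ v.asIdeal) :=
    Nat.finite_of_card_ne_zero (by rw [hcard]; exact pow_ne_zero _ hℓ.ne_zero)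
  have hℓ0 : (ℓ : 𝓞 K ⧸ v.asIdeal) = 0 := by
    rw [← map_natCast (Ideal.Quotient.mk v.asIdeal), Ideal.Quotient.eq_zero_iff_mem]
    refine v.isPrime.mem_of_pow_mem f ?_
    simpa [hv] using Ideal.absNorm_mem v.asIdeal
  have : CharP (𝓞 K ⧸ v.asIdeal) ℓ := (CharP.charP_iff_prime_eq_zero hℓ).2 hℓ0
  let _ : Algebra (ZMod ℓ) (𝓞 K ⧸ v.asIdeal) := ZMod.algebra _ ℓ
  have hfr : finrank (ZMod ℓ) (𝓞 K ⧸ v.asIdeal) = f := by
    have h := Module.natCard_eq_pow_finrank (K := ZMod ℓ) (V := 𝓞 K ⧸ v.asIdeal)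
    rw [hcard, Nat.card_zmod] at h
    exact (Nat.pow_right_injective hℓ.two_le h).symm
  refine twoCubic_ne_zero_of_finrank W (hfr.symm ▸ hf) hno (Ideal.Quotient.mk v.asIdeal y) ?_
  rw [← map_twoCubic, Ideal.Quotient.eq_zero_iff_mem]
  exact hgy

/-- The class character of the cubic field detects the roots of the cubic modulo good primes. -/
theorem exists_prime_char_ne_one_iff (hroot : ∀ x : ℚ, twoCubic W x ≠ 0) (hΔ : W.Δ ≠ 0) {s : K}
    (hs : s ^ 2 = (256 * W.Δ : ℤ)) (χ : ClassGroup (𝓞 K) →* Multiplicative (ZMod 3))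
    (hχ : ∀ v : HeightOneSpectrum (𝓞 K), (∀ ℓ f : ℕ, ℓ.Prime →
        Ideal.absNorm v.asIdeal = ℓ ^ f → ¬ 3 ∣ f) →
      (χ (ClassGroup.mk0 ⟨v.asIdeal, mem_nonZeroDivisors_of_ne_zero v.ne_bot⟩) = 1 ↔
        ¬ IsNonSplit K (CubicField W K) v))
    {ℓ : ℕ} (hℓ : ℓ.Prime) (h2 : ℓ ≠ 2) (hg : W.IsGoodPrimeFor ℓ) :
    (∃ P : (Ideal (𝓞 K))⁰, (P : Ideal (𝓞 K)).IsPrime ∧
      Ideal.absNorm (P : Ideal (𝓞 K)) = ℓ ∧ χ (ClassGroup.mk0 P) ≠ 1) ↔
    ¬ ∃ r : ZMod ℓ, twoCubic W r = 0 := by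
  have hres : ∀ v : HeightOneSpectrum (𝓞 K), ∀ f : ℕ, Ideal.absNorm v.asIdeal = ℓ ^ f → f < 3 →
      ∀ m k : ℕ, m.Prime → Ideal.absNorm v.asIdeal = m ^ k → ¬ 3 ∣ k := by
    intro v f hvf hf m k hm hvk
    rcases Nat.eq_zero_or_pos f with rfl | hf0
    · exact absurd (Ideal.absNorm_eq_one_iff.1 (by simpa using hvf)) v.isPrime.ne_top
    rw [hvf] at hvk
    have hml : ℓ = m := (Nat.prime_dvd_prime_iff_eq hℓ hm).1
      (hℓ.dvd_of_dvd_pow (hvk ▸ dvd_pow_self ℓ (by omega)))
    subst hml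
    rw [← Nat.pow_right_injective hℓ.two_le hvk]
    omega
  constructor
  · rintro ⟨P, hP, hN, hne⟩ hr
    let v : HeightOneSpectrum (𝓞 K) := ⟨P, hP, nonZeroDivisors.coe_ne_zero P⟩
    exact hne <| (hχ v (hres v 1 (by rw [pow_one]; exact hN) (by norm_num))).2 <|
      not_isNonSplit_of_root hroot hΔ hℓ h2 hg hr (hN ▸ Ideal.absNorm_mem _)
  · intro hno
    have key : ∀ (Q : Ideal (𝓞 K)) (hQ : Q.IsPrime) (hQ0 : Q ≠ ⊥) (f : ℕ),
        Ideal.absNorm Q = ℓ ^ f → f < 3 →
        χ (ClassGroup.mk0 ⟨Q, mem_nonZeroDivisors_of_ne_zero hQ0⟩) ≠ 1 := by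
      intro Q hQ hQ0 f hQf hf h1
      let v : HeightOneSpectrum (𝓞 K) := ⟨Q, hQ, hQ0⟩
      exact hno (exists_root_of_not_isNonSplit hroot hΔ hs hℓ (v := v) hQf hf
        ((hχ v (hres v f hQf hf)).1 h1))
    rcases prime_cases (K := K) hℓ with ⟨-, P, hPm, hN, -⟩ | ⟨-, P, -, hPm, -, -, hN, -⟩ |
      ⟨-, hLm, -⟩
    · have hP0 : P ≠ ⊥ := fun h => hℓ.ne_zero (by rw [← hN, h, Ideal.absNorm_bot])
      exact ⟨⟨P, mem_nonZeroDivisors_of_ne_zero hP0⟩, hPm.isPrime, hN,
        key P hPm.isPrime hP0 1 (by rw [pow_one]; exact hN) (by norm_num)⟩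
    · have hP0 : P ≠ ⊥ := fun h => hℓ.ne_zero (by rw [← hN, h, Ideal.absNorm_bot])
      exact ⟨⟨P, mem_nonZeroDivisors_of_ne_zero hP0⟩, hPm.isPrime, hN,
        key P hPm.isPrime hP0 1 (by rw [pow_one]; exact hN) (by norm_num)⟩
    · have h0 : Ideal.span {(ℓ : 𝓞 K)} ≠ ⊥ := by simp [hℓ.ne_zero]
      refine absurd ?_ (key _ hLm.isPrime h0 2 (absNorm_span_natCast ℓ) (by norm_num))
      rw [← classOf_coe, classOf_span (Nat.cast_ne_zero.2 hℓ.ne_zero), map_one]

end Fermat.Agent.DihedralGlue
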