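import Fermat.Agent.Dihedral.Primes

/-!
# The imaginary quadratic field of discriminant -D

The imaginary quadratic field `ℚ(√-D)` for squarefree `D ≡ 3 mod 8`.
-/

noncomputable section

namespace Fermat.Agent.DihedralGlue

open NumberField Module Fermat.Agent.Dihedral
open scoped nonZeroDivisors

variable {K : Type*} [Field K] [NumberField K]

theorem isTotallyComplex_of_sq {D : ℕ} (hD : D ≠ 0) {θ : K} (hθ : θ ^ 2 = -(D : K)) :
    IsTotallyComplex K := by
  refine ⟨fun v => ?_⟩
  by_contra hv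
  rw [InfinitePlace.not_isComplex_iff_isReal] at hv
  have h := congrArg (InfinitePlace.embedding_of_isReal hv) hθ
  rw [map_pow, map_neg, map_natCast] at h
  have hpos : (0 : ℝ) < D := by exact_mod_cast Nat.pos_of_ne_zero hD
  nlinarith [sq_nonneg (InfinitePlace.embedding_of_isReal hv θ)]

/-- The integer `ω = (1 + √-D)/2`. -/
theorem exists_omega {D : ℕ} (hD : D % 8 = 3) {θ : K} (hθ : θ ^ 2 = -(D : K)) :
    ∃ (ω : 𝓞 K) (c : ℤ), c % 2 = 1 ∧ 4 * c = (D : ℤ) + 1 ∧ ω * ω - ω + (c : 𝓞 K) = 0 ∧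
      2 * (ω : K) = 1 + θ := by
  set c : ℤ := ((D : ℤ) + 1) / 4 with hc
  have hc4 : 4 * c = (D : ℤ) + 1 := by omega
  have hz : ((1 + θ) / 2) * ((1 + θ) / 2) - (1 + θ) / 2 + (c : K) = 0 := by
    have h4 : (4 : K) * c = D + 1 := by exact_mod_cast congrArg (fun z : ℤ => (z : K)) hc4
    field_simp
    linear_combination hθ + h4
  have hint : IsIntegral ℤ ((1 + θ) / 2) := by
    refine ⟨Polynomial.X ^ 2 - Polynomial.X + Polynomial.C c, by monicity!, ?_⟩
    rw [Polynomial.eval₂_add, Polynomial.eval₂_sub, Polynomial.eval₂_pow, Polynomial.eval₂_X,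
      Polynomial.eval₂_C, sq, eq_intCast]
    exact hz
  refine ⟨⟨(1 + θ) / 2, hint⟩, c, by omega, hc4, RingOfIntegers.ext ?_, ?_⟩
  · simp only [map_add, map_intCast, map_zero]
    exact hz
  · show 2 * ((1 + θ) / 2) = 1 + θ
    field_simp

variable [IsImagQuadratic K]

/-- The discriminant of `ℚ(√-D)` is `-D`. -/
theorem discr_eq_neg {D : ℕ} (hD : D % 8 = 3) (hsq : Squarefree D) {θ : K}
    (hθ : θ ^ 2 = -(D : K)) : discr K = -(D : ℤ) := by
  obtain ⟨ω, c, -, -, -, hω⟩ := exists_omega hD hθ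
  set b := intBasis K
  have hx : ∀ x : 𝓞 K, emb K (x : K) =
      ((b.repr x 0 : ℤ) : ℂ) * emb K (b 0 : K) + ((b.repr x 1 : ℤ) : ℂ) * emb K (b 1 : K) := by
    intro x
    conv_lhs => rw [← b.sum_repr x, Fin.sum_univ_two]
    simp [zsmul_eq_mul]
  set p := b.repr 1 0
  set q := b.repr 1 1
  set r := b.repr ω 0
  set s := b.repr ω 1
  have h1 := hx 1
  have h2 := hx ω
  rw [show (((1 : 𝓞 K) : K)) = 1 from rfl, map_one] at h1
  have h1re := congrArg Complex.re h1
  have h1im := congrArg Complex.im h1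
  have h2re := congrArg Complex.re h2
  have h2im := congrArg Complex.im h2
  simp only [Complex.one_re, Complex.one_im, Complex.add_re, Complex.add_im, Complex.mul_re,
    Complex.mul_im, Complex.intCast_re, Complex.intCast_im, zero_mul, sub_zero, add_zero]
    at h1re h1im h2re h2im
  have hd := discr_eq K b
  set z := emb K (θ : K) with hzdef
  have hz : z ^ 2 = -(D : ℂ) := by rw [hzdef, ← map_pow, hθ, map_neg, map_natCast]
  have hzre : z.re = 0 ∧ z.im ^ 2 = D := by
    have hre := congrArg Complex.re hz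
    have him := congrArg Complex.im hz
    simp only [sq, Complex.mul_re, Complex.mul_im, Complex.neg_re, Complex.neg_im,
      Complex.natCast_re, Complex.natCast_im, neg_zero] at hre him
    have hpos : (0 : ℝ) < D := by exact_mod_cast (show 0 < D by omega)
    have h0 : z.re * z.im = 0 := by linarith
    rcases mul_eq_zero.1 h0 with h | h
    · exact ⟨h, by rw [h] at hre; nlinarith⟩
    · rw [h] at hre; nlinarith
  have hω' : 2 * emb K (ω : K) = 1 + z := by
    have h := congrArg (emb K) hω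
    rw [map_mul, map_ofNat, map_add, map_one] at h
    exact h
  have hωim : 2 * (emb K (ω : K)).im = z.im := by simpa using congrArg Complex.im hω'
  have hdet : (((p * s - q * r : ℤ)) : ℝ) ^ 2 * (discr K : ℝ) = -(D : ℝ) := by
    have key : ((p * s - q * r : ℤ) : ℝ) * ((emb K (b 0 : K)).re * (emb K (b 1 : K)).im
        - (emb K (b 0 : K)).im * (emb K (b 1 : K)).re) = (emb K (ω : K)).im := by
      push_cast
      linear_combination (-(emb K (ω : K)).im) * h1re + (emb K (ω : K)).re * h1im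
        - ((p : ℝ) * (emb K (b 0 : K)).re + q * (emb K (b 1 : K)).re) * h2im
        + ((p : ℝ) * (emb K (b 0 : K)).im + q * (emb K (b 1 : K)).im) * h2re
    rw [hd, show ∀ u v : ℝ, u ^ 2 * (-4 * v ^ 2) = -(2 * (u * v)) ^ 2 from fun u v => by ring,
      key, hωim, hzre.2]
  have hdetZ : (p * s - q * r) ^ 2 * discr K = -(D : ℤ) := by exact_mod_cast hdet
  have hu : IsUnit (p * s - q * r) := by
    refine (Int.squarefree_natCast.2 hsq) _ ⟨-discr K, ?_⟩
    linear_combination hdetZ
  rcases Int.isUnit_iff.1 hu with h | h <;> rw [h] at hdetZ <;> linarith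

/-- The prime 2 is inert in `ℚ(√-D)`. -/
theorem two_inert {D : ℕ} (hD : D % 8 = 3) (hsq : Squarefree D) {θ : K}
    (hθ : θ ^ 2 = -(D : K)) : (Ideal.span {(2 : 𝓞 K)}).IsPrime := by
  obtain ⟨ω, c, hc2, -, hc, -⟩ := exists_omega hD hθ
  have hd : ¬ (2 : ℤ) ∣ discr K := by rw [discr_eq_neg hD hsq hθ]; omega
  rcases prime_cases (K := K) Nat.prime_two with ⟨h, -⟩ | ⟨-, P, -, hPm, -, -, hN, -⟩ | ⟨-, h, -⟩
  · exact absurd (by exact_mod_cast h) hd
  · exfalso
    have hcard : Nat.card (𝓞 K ⧸ P) = 2 := by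
      rw [← hN, Ideal.absNorm_apply, Submodule.cardQuot_apply]
    have : Finite (𝓞 K ⧸ P) := Nat.finite_of_card_ne_zero (by omega)
    let _ : Field (𝓞 K ⧸ P) := Ideal.Quotient.field P
    let _ := Fintype.ofFinite (𝓞 K ⧸ P)
    have hsqx : ∀ x : 𝓞 K ⧸ P, x * x = x := fun x => by
      have := FiniteField.pow_card x
      rwa [← Nat.card_eq_fintype_card, hcard, sq] at this
    have h0 := congrArg (Ideal.Quotient.mk P) hc
    rw [map_add, map_sub, map_mul, hsqx, sub_self, zero_add, map_zero] at h0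
    have h2 : (Ideal.Quotient.mk P) (2 : 𝓞 K) = 0 :=
      Ideal.Quotient.eq_zero_iff_mem.2 (by simpa [hN] using Ideal.absNorm_mem P)
    obtain ⟨k, hk⟩ : ∃ k, c = 2 * k + 1 := ⟨c / 2, by omega⟩
    rw [hk, Int.cast_add, Int.cast_mul, Int.cast_ofNat, Int.cast_one, map_add, map_mul, h2,
      zero_mul, zero_add, map_one] at h0
    exact one_ne_zero h0
  · simpa using h.isPrime

end Fermat.Agent.DihedralGlue
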