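import Fermat.Agent.DihedralGlue.Cubic
import Fermat.Agent.DihedralGlue.Quad
import Fermat.Agent.Dihedral.Assembly

/-!
# Residual modularity modulo 2 of the switched curve

Residual modularity modulo `2` of the switched curve: a semistable model with
`Δ < 0`, `Δ = 4^k r`, `r ≡ 5 mod 8` and rootless two-division cubic is congruent modulo `2` to a
normalised eigenform of weight `2` and level `D`, the squarefree part of `-Δ`.
-/

noncomputable section

namespace Fermat.Agent.DihedralGlue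

open NumberField IsDedekindDomain Module Polynomial Fermat.Agent.CFT Fermat.Agent.Dihedral
open scoped nonZeroDivisors

/-- The input from class field theory: everywhere unramified cyclic cubic extensions have class
characters detecting the split primes. -/
def ClassCharInput : Prop :=
  ∀ (K L : Type) [Field K] [NumberField K] [Field L] [NumberField L] [Algebra K L] [IsGalois K L],
    finrank K L = 3 →
    (∀ w : HeightOneSpectrum (𝓞 L), w.asIdeal.ramificationIdx (𝓞 K) = 1) →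
    ∃ χ : ClassGroup (𝓞 K) →* Multiplicative (ZMod 3), Function.Surjective χ ∧
      ∀ v : HeightOneSpectrum (𝓞 K), (∀ ℓ f : ℕ, ℓ.Prime → Ideal.absNorm v.asIdeal = ℓ ^ f →
          ¬ 3 ∣ f) →
        (χ (ClassGroup.mk0 ⟨v.asIdeal, mem_nonZeroDivisors_of_ne_zero v.ne_bot⟩) = 1 ↔
          ¬ IsNonSplit K L v)

/-- The rootless short cubic gives a rootless two-division cubic. -/
theorem twoCubic_ne_zero_of_short (W : WeierstrassCurve ℤ)
    (h : ∀ x : ℚ, x ^ 3 + (-27 * (W.c₄ : ℚ)) * x + (-54 * (W.c₆ : ℚ)) ≠ 0) (u : ℚ) :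
    twoCubic W u ≠ 0 := by
  intro hu
  refine h (9 * u + 3 * W.b₂) ?_
  simp only [twoCubic] at hu
  rw [WeierstrassCurve.c₄, WeierstrassCurve.c₆]
  push_cast
  linear_combination 729 * hu

/-- `r = -m² D` with `D` squarefree and `D ≡ 3 mod 8`. -/
theorem exists_squarefree_part {W : WeierstrassCurve ℤ} {k : ℕ} {r : ℤ} (hneg : W.Δ < 0)
    (hr : W.Δ = 4 ^ k * r) (hr8 : r % 8 = 5) :
    ∃ D m : ℕ, Squarefree D ∧ D % 8 = 3 ∧ r = -((m : ℤ) ^ 2 * D) ∧ m ≠ 0 := by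
  have hr0 : r < 0 := by
    by_contra h
    push Not at h
    exact absurd (hr ▸ mul_nonneg (by positivity) h) (not_le.2 hneg)
  obtain ⟨D, m, hDm, hD⟩ := Nat.sq_mul_squarefree (-r).toNat
  have hrD : r = -((m : ℤ) ^ 2 * D) := by
    have h' : (((-r).toNat : ℕ) : ℤ) = -r := Int.toNat_of_nonneg (by omega)
    rw [← hDm] at h'
    push_cast at h'
    linarith
  refine ⟨D, m, hD, ?_, hrD, fun h => by subst h; simp at hrD; omega⟩
  have h8 : ((m : ZMod 8) ^ 2 * D) = 3 := by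
    have h := congrArg (fun z : ℤ => (z : ZMod 8)) hrD
    have h5 : (r : ZMod 8) = 5 := by
      rw [← Int.cast_ofNat, ZMod.intCast_eq_intCast_iff']
      omega
    push_cast at h
    rw [h5] at h
    rw [← neg_eq_iff_eq_neg] at h
    rw [← h]; rfl
  have key : ∀ a b : ZMod 8, a ^ 2 * b = 3 → b = 3 := by decide
  have h3 := key _ _ h8
  rw [show (3 : ZMod 8) = ((3 : ℕ) : ZMod 8) from rfl, ZMod.natCast_eq_natCast_iff'] at h3
  omega

theorem sq_scaled_root {F : Type*} [CommRing F] {W : WeierstrassCurve ℤ} {k m D : ℕ} {r : ℤ}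
    (hr : W.Δ = 4 ^ k * r) (hrD : r = -((m : ℤ) ^ 2 * D)) {θ : F} (hθ : θ ^ 2 = -(D : F)) :
    (16 * 2 ^ k * (m : F) * θ) ^ 2 = ((256 * W.Δ : ℤ) : F) := by
  rw [hr, hrD, mul_pow, hθ, show (4 : ℤ) ^ k = 2 ^ k * 2 ^ k by rw [← mul_pow]; norm_num]
  push_cast
  ring

/-- Residual modularity at level `D`, given the class character. -/
theorem exists_residual_eigenform_of_classChar (hcft : ClassCharInput) (W : WeierstrassCurve ℤ)
    (hW : W.IsSemistableModel) (hneg : W.Δ < 0)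
    (hΔ : ∃ (k : ℕ) (r : ℤ), 0 < k ∧ W.Δ = 4 ^ k * r ∧ r % 8 = 5)
    (hcub : ∀ x : ℚ, x ^ 3 + (-27 * (W.c₄ : ℚ)) * x + (-54 * (W.c₆ : ℚ)) ≠ 0) :
    ∃ D : ℕ, Squarefree D ∧ D % 8 = 3 ∧ IsSquare (-W.Δ * D) ∧ (D : ℤ) ∣ W.Δ ∧
      ∃ f : CuspForm (CongruenceSubgroup.Gamma0 D) 2, f.IsNormalizedEigenform ∧
        ∃ Q : Ideal (integralClosure ℤ ℂ), Q.IsMaximal ∧ (2 : integralClosure ℤ ℂ) ∈ Q ∧
          (∀ ℓ : ℕ, ℓ.Prime → (ℓ = 2 ∨ ℓ ∣ D) → ∃ a : integralClosure ℤ ℂ,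
            (a : ℂ) = ModularFormClass.qCoeff f ℓ ∧ a - 1 ∈ Q) ∧
          ∀ ℓ : ℕ, ℓ.Prime → W.IsGoodPrimeFor ℓ → ∃ a : integralClosure ℤ ℂ,
            (a : ℂ) = ModularFormClass.qCoeff f ℓ ∧
              a - ((W.apOfModel ℓ : ℤ) : integralClosure ℤ ℂ) ∈ Q := by
  obtain ⟨k, r, hk, hr, hr8⟩ := hΔ
  obtain ⟨D, m, hsq, hD8, hrD, hm⟩ := exists_squarefree_part hneg hr hr8
  have hDΔ : (D : ℤ) ∣ W.Δ := ⟨-(4 ^ k * (m : ℤ) ^ 2), by rw [hr, hrD]; ring⟩
  have hsquare : IsSquare (-W.Δ * D) := ⟨2 ^ k * m * D, by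
    rw [hr, hrD, show (4 : ℤ) ^ k = 2 ^ k * 2 ^ k by rw [← mul_pow]; norm_num]; ring⟩
  have h2Δ : (2 : ℤ) ∣ W.Δ := hr ▸ (dvd_pow (by norm_num) hk.ne').mul_right r
  refine ⟨D, hsq, hD8, hsquare, hDΔ, ?_⟩
  -- the field `ℚ(√-D)`
  have : Fact (Irreducible (X ^ 2 - C (-(D : ℚ)))) := ⟨X_pow_sub_C_irreducible_of_prime
    Nat.prime_two fun b hb => by
      have : (0 : ℚ) < D := by exact_mod_cast (show 0 < D by omega)
      nlinarith [sq_nonneg b]⟩
  let K := AdjoinRoot (X ^ 2 - C (-(D : ℚ)))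
  have hmon : (X ^ 2 - C (-(D : ℚ))).Monic := monic_X_pow_sub_C _ two_ne_zero
  have : CharZero K := charZero_of_injective_algebraMap (algebraMap ℚ K).injective
  have : FiniteDimensional ℚ K := (AdjoinRoot.powerBasis' hmon).finite
  have : NumberField K := { }
  set θ : K := AdjoinRoot.root (X ^ 2 - C (-(D : ℚ))) with hθdef
  have hθ : θ ^ 2 = -(D : K) := by
    have h := AdjoinRoot.eval₂_root (X ^ 2 - C (-(D : ℚ)))
    rw [eval₂_sub, eval₂_pow, eval₂_X, eval₂_C, sub_eq_zero] at h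
    rw [hθdef, h, map_neg, map_natCast]
  have hdeg : finrank ℚ K = 2 := by
    rw [(AdjoinRoot.powerBasis' hmon).finrank, AdjoinRoot.powerBasis'_dim, natDegree_X_pow_sub_C]
  have : IsTotallyComplex K := isTotallyComplex_of_sq (by omega) hθ
  have : IsImagQuadratic K := ⟨hdeg, inferInstance⟩
  have hdisc := discr_eq_neg hD8 hsq hθ
  -- the cubic field and its class character
  have hroot := twoCubic_ne_zero_of_short W hcub
  have hs : (16 * 2 ^ k * (m : K) * θ) ^ 2 = ((256 * W.Δ : ℤ) : K) := by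
    exact sq_scaled_root hr hrD hθ
  have := isGalois_cubicField W K hroot
  obtain ⟨χ, hχsurj, hχ⟩ := hcft K (CubicField W K) (finrank_cubicField W K hroot hneg.ne hs)
    fun w => ramificationIdx_eq_one hroot hneg.ne h2Δ hW hs w
  have hχ1 : χ ≠ 1 := by
    rintro rfl
    obtain ⟨C, hC⟩ := hχsurj (Multiplicative.ofAdd 1)
    simp only [MonoidHom.one_apply] at hC
    exact absurd hC (by decide)
  have h := exists_dihedral_eigenform K hdeg (two_inert hD8 hsq hθ) χ hχ1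
  rw [show (discr K).natAbs = D by rw [hdisc]; simp] at h
  obtain ⟨f, hf, Q, hQ, h2Q, hQℓ⟩ := h
  refine ⟨f, hf, Q, hQ, h2Q, fun ℓ hℓ hℓD => ?_, fun ℓ hℓ hg => ?_⟩
  · obtain ⟨a, ha, haQ⟩ := hQℓ ℓ hℓ
    have ht : traceTwo K χ ℓ = 1 := by
      rcases hℓD with rfl | hd
      · exact traceTwo_two K χ
      · exact traceTwo_of_dvd_discr K χ (by rw [hdisc, dvd_neg]; exact_mod_cast hd)
    rw [ht, Int.cast_one] at haQ
    exact ⟨a, ha, haQ⟩
  · obtain ⟨a, ha, haQ⟩ := hQℓ ℓ hℓ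
    refine ⟨a, ha, ?_⟩
    have h2 : ℓ ≠ 2 := by rintro rfl; exact hg h2Δ
    have hd : ¬ (ℓ : ℤ) ∣ discr K := by
      rw [hdisc, dvd_neg]; exact fun h => hg (h.trans hDΔ)
    have heven : (2 : ℤ) ∣ traceTwo K χ ℓ - W.apOfModel ℓ := by
      rw [show (2 : ℤ) = ((2 : ℕ) : ℤ) from rfl, ← ZMod.intCast_zmod_eq_zero_iff_dvd, Int.cast_sub,
        sub_eq_zero, traceTwo, if_neg (not_or.2 ⟨h2, hd⟩)]
      have hiff := exists_prime_char_ne_one_iff hroot hneg.ne hs χ hχ hℓ h2 hg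
      by_cases hno : ∃ r : ZMod ℓ, twoCubic W r = 0
      · rw [if_neg fun h => hiff.1 h hno, Int.cast_zero, eq_comm,
          ZMod.intCast_eq_zero_iff_even, ← Int.not_odd_iff_even]
        exact fun h => (odd_apOfModel_iff W hℓ h2 hg).1 h hno
      · rw [if_pos (hiff.2 hno), Int.cast_one, eq_comm, ZMod.intCast_eq_one_iff_odd]
        exact (odd_apOfModel_iff W hℓ h2 hg).2 hno
    obtain ⟨j, hj⟩ := heven
    have : a - ((W.apOfModel ℓ : ℤ) : integralClosure ℤ ℂ) =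
        (a - (traceTwo K χ ℓ : integralClosure ℤ ℂ)) + 2 * (j : integralClosure ℤ ℂ) := by
      rw [show W.apOfModel ℓ = traceTwo K χ ℓ - 2 * j by linarith]
      push_cast
      ring
    rw [this]
    exact Q.add_mem haQ (Q.mul_mem_right _ h2Q)

end Fermat.Agent.DihedralGlue
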