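import Mathlib
import Fermat.Prelude.Def_FLTPrelim_Modularity

/-!
# The parity of the trace of Frobenius

The parity of `a_ℓ`: it is odd exactly when the monic two-division cubic has no root mod `ℓ`.
-/

namespace Fermat.Agent.DihedralGlue

open WeierstrassCurve

/-- The monic two-division cubic `u³ + b₂ u² + 8 b₄ u + 16 b₆` (`u = 4x`) at a point. -/
def twoCubic (W : WeierstrassCurve ℤ) {R : Type*} [CommRing R] (u : R) : R :=
  u ^ 3 + (W.b₂ : R) * u ^ 2 + 8 * (W.b₄ : R) * u + 16 * (W.b₆ : R)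

theorem map_twoCubic (W : WeierstrassCurve ℤ) {R S : Type*} [CommRing R] [CommRing S] (φ : R →+* S)
    (u : R) : φ (twoCubic W u) = twoCubic W (φ u) := by
  simp [twoCubic, map_ofNat]

/-- The discriminant of the cubic is `256 Δ`. -/
theorem twoCubic_discr (W : WeierstrassCurve ℤ) :
    W.b₂ ^ 2 * (8 * W.b₄) ^ 2 - 4 * (8 * W.b₄) ^ 3 - 4 * W.b₂ ^ 3 * (16 * W.b₆)
      - 27 * (16 * W.b₆) ^ 2 + 18 * W.b₂ * (8 * W.b₄) * (16 * W.b₆) = 256 * W.Δ := by
  rw [WeierstrassCurve.Δ]
  linear_combination 64 * W.b₂ ^ 2 * W.b_relation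

variable {F : Type*} [Field F]

/-- Three pairwise different roots multiply up to the cubic. -/
theorem twoCubic_eq_mul (W : WeierstrassCurve ℤ) {r₁ r₂ : F} (h : r₁ ≠ r₂)
    (h₁ : twoCubic W r₁ = 0) (h₂ : twoCubic W r₂ = 0) (u : F) :
    twoCubic W u = (u - r₁) * (u - r₂) * (u - (-(W.b₂ : F) - r₁ - r₂)) := by
  have hc : 8 * (W.b₄ : F) = r₁ * r₂ + (r₁ + r₂) * (-(W.b₂ : F) - r₁ - r₂) := by
    apply mul_left_cancel₀ (sub_ne_zero.2 h)
    simp only [twoCubic] at h₁ h₂
    linear_combination h₁ - h₂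
  simp only [twoCubic] at h₁ ⊢
  linear_combination (u - r₁) * hc + h₁

theorem discr_ne_zero_of_mul (W : WeierstrassCurve ℤ) (hΔ : (256 * W.Δ : F) ≠ 0) {a b c : F}
    (hs : -(W.b₂ : F) = a + b + c) (hp : 8 * (W.b₄ : F) = a * b + a * c + b * c)
    (hd : -(16 * (W.b₆ : F)) = a * b * c) : a ≠ b ∧ a ≠ c ∧ b ≠ c := by
  have hD : (256 * W.Δ : F) = ((a - b) * (a - c) * (b - c)) ^ 2 := by
    have h := congrArg (fun z : ℤ => (z : F)) (twoCubic_discr W)
    push_cast at h
    rw [← h, show (W.b₂ : F) = -(a + b + c) by linear_combination -hs, hp,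
      show 16 * (W.b₆ : F) = -(a * b * c) by linear_combination -hd]
    ring
  rw [hD] at hΔ
  simp only [ne_eq, pow_eq_zero_iff, mul_eq_zero, sub_eq_zero, OfNat.ofNat_ne_zero,
    not_false_eq_true, not_or] at hΔ
  exact ⟨hΔ.1.1, hΔ.1.2, hΔ.2⟩

/-- A separable cubic does not have exactly two roots. -/
theorem odd_card_roots [Fintype F] [DecidableEq F] (W : WeierstrassCurve ℤ)
    (hΔ : (256 * W.Δ : F) ≠ 0) {r : F} (hr : twoCubic W r = 0) :
    Odd (Finset.univ.filter fun u : F => twoCubic W u = 0).card := by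
  by_cases h : ∃ r', r' ≠ r ∧ twoCubic W r' = 0
  · obtain ⟨r', hne, hr'⟩ := h
    set r'' := -(W.b₂ : F) - r - r' with hdef
    have hfac := twoCubic_eq_mul W hne.symm hr hr'
    obtain ⟨hab, hac, hbc⟩ := discr_ne_zero_of_mul W hΔ (a := r) (b := r') (c := r'')
      (by rw [hdef]; ring)
      (by have h0 := hfac 0; have h1 := hfac 1; have h2 := hfac (-1)
          simp only [twoCubic] at h0 h1 h2
          linear_combination h1 - h0 + 0 * h2)
      (by have h0 := hfac 0
          simp only [twoCubic] at h0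
          linear_combination -h0)
    have : (Finset.univ.filter fun u : F => twoCubic W u = 0) = {r, r', r''} := by
      ext u
      simp [hfac u, mul_eq_zero, sub_eq_zero, or_assoc, ← hdef]
    rw [this, Finset.card_insert_of_notMem (by simp [hab, hac]),
      Finset.card_insert_of_notMem (by simp [hbc]), Finset.card_singleton]
    decide
  · push Not at h
    have : (Finset.univ.filter fun u : F => twoCubic W u = 0) = {r} := by
      ext u
      simp only [Finset.mem_filter, Finset.mem_univ, true_and, Finset.mem_singleton]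
      exact ⟨fun hu => by_contra fun hne => h u hne hu, fun hu => hu ▸ hr⟩
    rw [this, Finset.card_singleton]
    exact odd_one

open scoped Classical in
/-- The number of points is `1 +` the number of roots of the cubic, modulo `2`. -/
theorem card_zmod_two [Fintype F] (E : WeierstrassCurve F) [E.IsElliptic] (h2 : (2 : F) ≠ 0) :
    (E.card : ZMod 2) = 1 + ((Finset.univ.filter fun u : F =>
      u ^ 3 + E.b₂ * u ^ 2 + 8 * E.b₄ * u + 16 * E.b₆ = 0).card : ZMod 2) := by
  set S : Finset (F × F) := Finset.univ.filter fun p => E.toAffine.Equation p.1 p.2 with hS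
  have hcard : E.card = S.card + 1 := by
    rw [WeierstrassCurve.card, Nat.card_congr E.toAffine.pointEquiv]
    have : Nat.card (WithZero {xy : F × F // E.toAffine.Equation xy.1 xy.2}) =
        Nat.card {xy : F × F // E.toAffine.Equation xy.1 xy.2} + 1 := Finite.card_option
    rw [this, Nat.card_eq_fintype_card, Fintype.card_subtype, hS]
  have hpair : ∑ p ∈ S.filter (fun p => ¬ E.toAffine.negY p.1 p.2 = p.2), (1 : ZMod 2) = 0 := by
    refine Finset.sum_involution (fun p _ => (p.1, E.toAffine.negY p.1 p.2))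
      (fun _ _ => CharTwo.add_self_eq_zero _) (fun p hp _ h => ?_) (fun p hp => ?_) (fun p _ => ?_)
    · exact (Finset.mem_filter.1 hp).2 (congrArg Prod.snd h)
    · simp only [hS, Finset.mem_filter, Finset.mem_univ, true_and] at hp ⊢
      exact ⟨(Affine.equation_neg _ _).2 hp.1, by rw [Affine.negY_negY]; exact Ne.symm hp.2⟩
    · exact Prod.ext rfl (E.toAffine.negY_negY p.1 p.2)
  have hfix : (S.filter fun p => E.toAffine.negY p.1 p.2 = p.2).card =
      (Finset.univ.filter fun u : F =>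
        u ^ 3 + E.b₂ * u ^ 2 + 8 * E.b₄ * u + 16 * E.b₆ = 0).card := by
    have h4 : (4 : F) ≠ 0 := by rw [show (4 : F) = 2 * 2 by norm_num]; exact mul_ne_zero h2 h2
    refine Finset.card_bij' (fun p _ => 4 * p.1)
      (fun u _ => (u / 4, -(E.a₁ * (u / 4) + E.a₃) / 2)) (fun p hp => ?_) (fun u hu => ?_)
      (fun p hp => ?_) (fun u _ => by field_simp)
    · simp only [hS, Finset.mem_filter, Finset.mem_univ, true_and, Affine.equation_iff,
        Affine.negY] at hp ⊢
      simp only [b₂, b₄, b₆]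
      linear_combination -64 * hp.1 - 16 * (2 * p.2 + E.a₁ * p.1 + E.a₃) * hp.2
    · replace hu := (Finset.mem_filter.1 hu).2
      simp only [hS, Finset.mem_filter, Finset.mem_univ, true_and, Affine.equation_iff,
        Affine.negY, b₂, b₄, b₆] at hu ⊢
      have h64 : (64 : F) ≠ 0 := by
        rw [show (64 : F) = 4 * 4 * 4 by norm_num]; exact mul_ne_zero (mul_ne_zero h4 h4) h4
      refine ⟨?_, by field_simp; ring⟩
      apply mul_left_cancel₀ h64
      field_simp
      linear_combination -4 * hu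
    · simp only [hS, Finset.mem_filter, Finset.mem_univ, true_and, Affine.negY] at hp
      refine Prod.ext (by field_simp) ?_
      field_simp
      linear_combination hp.2
  rw [hcard, ← hfix, Nat.cast_add, Nat.cast_one,
    ← Finset.card_filter_add_card_filter_not (s := S) (fun p => E.toAffine.negY p.1 p.2 = p.2),
    Nat.cast_add, ← nsmul_one (S.filter fun p => ¬ _).card, ← Finset.sum_const, hpair, add_zero,
    add_comm]

/-- `a_ℓ` is odd exactly when the two-division cubic has no root modulo `ℓ`. -/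
theorem odd_apOfModel_iff (W : WeierstrassCurve ℤ) {ℓ : ℕ} (hℓ : ℓ.Prime) (h2 : ℓ ≠ 2)
    (hg : W.IsGoodPrimeFor ℓ) :
    Odd (W.apOfModel ℓ) ↔ ¬ ∃ r : ZMod ℓ, twoCubic W r = 0 := by
  classical
  have : Fact ℓ.Prime := ⟨hℓ⟩
  have hΔ : (W.Δ : ZMod ℓ) ≠ 0 := fun h => hg ((ZMod.intCast_zmod_eq_zero_iff_dvd _ _).1 h)
  have h20 : (2 : ZMod ℓ) ≠ 0 := by
    intro h
    have : ((2 : ℕ) : ZMod ℓ) = 0 := by exact_mod_cast h
    rw [ZMod.natCast_eq_zero_iff] at this
    exact h2 ((Nat.prime_dvd_prime_iff_eq hℓ Nat.prime_two).1 this)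
  have : (W.reductionMod ℓ).IsElliptic := ⟨by
    rw [reductionMod, map_Δ, eq_intCast]; exact isUnit_iff_ne_zero.2 hΔ⟩
  have hc := card_zmod_two (W.reductionMod ℓ) h20
  simp only [reductionMod, map_b₂, map_b₄, map_b₆, eq_intCast] at hc
  have hl : ((ℓ : ℕ) : ZMod 2) = 1 := ZMod.natCast_eq_one_iff_odd.2 (hℓ.odd_of_ne_two h2)
  have ha : (W.apOfModel ℓ : ZMod 2) =
      1 + ((Finset.univ.filter fun u : ZMod ℓ => twoCubic W u = 0).card : ZMod 2) := by
    rw [apOfModel, traceOfFrobenius, Int.cast_sub, Int.cast_add, Int.cast_one, Int.cast_natCast,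
      Int.cast_natCast, Nat.card_zmod, hl]
    simp only [reductionMod, twoCubic] at hc ⊢
    rw [hc, show (1 : ZMod 2) + 1 = 0 from rfl, zero_sub, ZMod.neg_eq_self_mod_two]
  rw [← ZMod.intCast_eq_one_iff_odd, ha, add_eq_left]
  constructor
  · rintro h ⟨r, hr⟩
    have hΔ' : (256 * W.Δ : ZMod ℓ) ≠ 0 := by
      rw [show (256 : ZMod ℓ) = 2 ^ 8 by norm_num]; exact mul_ne_zero (pow_ne_zero 8 h20) hΔ
    rw [ZMod.natCast_eq_zero_iff_even] at h
    exact Nat.not_odd_iff_even.2 h (odd_card_roots W hΔ' hr)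
  · intro h
    have : (Finset.univ.filter fun u : ZMod ℓ => twoCubic W u = 0) = ∅ :=
      Finset.filter_eq_empty_iff.2 fun u _ hu => h ⟨u, hu⟩
    simp [this]

end Fermat.Agent.DihedralGlue
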