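import Fermat.Agent.DihedralGlue.Parity
import Fermat.Agent.EllTorsion.Galois
import Fermat.Prelude.Def_EllipticCurve_FrobeniusTrace

/-!
# Two-torsion points and the two-division cubic

The two-torsion points of an integral model over `ℚ̄` and the roots of the two-division cubic.
-/

noncomputable section

namespace Fermat.Agent.DihedralGlue

open WeierstrassCurve
open scoped WeierstrassCurve.Affine

local notation "Ω" => AlgebraicClosure ℚ

variable (W : WeierstrassCurve ℤ)

/-- The rational curve of the model. -/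
abbrev ratCurve : WeierstrassCurve ℚ := W.map (Int.castRingHom ℚ)

/-- Its two-torsion over `ℚ̄`. -/
abbrev Tors : Type := Submodule.torsionBy ℤ ((ratCurve W).toAffine⁄Ω).Point ((2 : ℕ) : ℤ)

/-- `u = 4x` of a point (zero at the origin). -/
def uCoord : ((ratCurve W).toAffine⁄Ω).Point → Ω
  | .zero => 0
  | .some x _ _ => 4 * x

theorem uCoord_smul (σ : Ω ≃ₐ[ℚ] Ω) (P : ((ratCurve W).toAffine⁄Ω).Point) :
    uCoord W (σ • P) = σ (uCoord W P) := by
  cases P with
  | zero => exact (map_zero σ).symm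
  | some x y h => exact ((map_mul σ 4 x).trans (by rw [map_ofNat]; rfl)).symm

theorem exists_coords (P : Tors W) (hP : P ≠ 0) :
    ∃ x y h, (P : ((ratCurve W).toAffine⁄Ω).Point) = Affine.Point.some x y h ∧
      2 * y + (W.a₁ : Ω) * x + (W.a₃ : Ω) = 0 := by
  obtain ⟨Q, hQ⟩ := P
  cases Q with
  | zero => exact absurd (Subtype.ext rfl) hP
  | some x y h =>
    refine ⟨x, y, h, rfl, ?_⟩
    have h2 : Affine.Point.some x y h + Affine.Point.some x y h = 0 := by
      have := (Submodule.mem_torsionBy_iff _ _).1 hQ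
      rwa [Nat.cast_ofNat, two_smul] at this
    rw [add_eq_zero_iff_eq_neg, Affine.Point.neg_some] at h2
    injection h2 with _ hy
    simp only [Affine.negY, WeierstrassCurve.baseChange, map_a₁, map_a₃, eq_intCast,
      map_intCast] at hy
    linear_combination hy

theorem twoCubic_uCoord (P : Tors W) (hP : P ≠ 0) :
    twoCubic W (uCoord W (P : ((ratCurve W).toAffine⁄Ω).Point)) = 0 := by
  obtain ⟨x, y, h, hPe, h2⟩ := exists_coords W P hP
  rw [hPe]
  show twoCubic W (4 * x) = 0
  have he := (Affine.equation_iff x y).1 h.1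
  simp only [WeierstrassCurve.baseChange, map_a₁, map_a₂, map_a₃, map_a₄, map_a₆, eq_intCast,
    map_intCast] at he
  simp only [twoCubic, b₂, b₄, b₆]
  push_cast
  linear_combination -64 * he + 16 * (2 * y + (W.a₁ : Ω) * x + (W.a₃ : Ω)) * h2

theorem uCoord_injective {P Q : Tors W} (hP : P ≠ 0) (hQ : Q ≠ 0)
    (h : uCoord W (P : ((ratCurve W).toAffine⁄Ω).Point) =
      uCoord W (Q : ((ratCurve W).toAffine⁄Ω).Point)) : P = Q := by
  obtain ⟨x, y, hxy, hPe, h2⟩ := exists_coords W P hP
  obtain ⟨x', y', hxy', hQe, h2'⟩ := exists_coords W Q hQ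
  rw [hPe, hQe] at h
  change 4 * x = 4 * x' at h
  have hx : x = x' := mul_left_cancel₀ (by norm_num) h
  subst hx
  have hy : y = y' := by linear_combination (h2 - h2') / 2
  subst hy
  exact Subtype.ext (hPe.trans hQe.symm)

theorem exists_basis (hΔ : W.Δ ≠ 0) : Nonempty (Module.Basis (Fin 2) (ZMod 2) (Tors W)) := by
  have : (ratCurve W).IsElliptic := ⟨by
    rw [map_Δ, eq_intCast]; exact isUnit_iff_ne_zero.2 (Int.cast_ne_zero.2 hΔ)⟩
  have : Fact (Nat.Prime 2) := ⟨Nat.prime_two⟩
  have hr := EllTorsion.finrank_torsionBy_rat (ratCurve W) 2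
  have : Module.Finite (ZMod 2) (Tors W) := Module.finite_of_finrank_eq_succ hr
  exact ⟨Module.finBasisOfFinrankEq (ZMod 2) (Tors W) hr⟩

end Fermat.Agent.DihedralGlue
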