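import Fermat.Agent.DihedralGlue.Combined
import Fermat.Agent.DihedralGlue.CFTInput

/-!
# The residual input at 2, unconditionally

The residual input of the 2-adic lifting step, unconditionally.
-/

noncomputable section

namespace Fermat.Agent.DihedralGlue

open Fermat.Agent.DefRing

/-- The residual input of the 2-adic lifting step. -/
theorem residual_modularity (W : WeierstrassCurve ℤ)
    (hW : W.IsSemistableModel) (hneg : W.Δ < 0)
    (hΔ : ∃ (k : ℕ) (r : ℤ), 0 < k ∧ W.Δ = 4 ^ k * r ∧ r % 8 = 5)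
    (hcub : ∀ x : ℚ, x ^ 3 + (-27 * (W.c₄ : ℚ)) * x + (-54 * (W.c₆ : ℚ)) ≠ 0)
    (k : Type) [Field k] [CharP k 2] :
    ∃ D : ℕ, Squarefree D ∧ D % 8 = 3 ∧ IsSquare (-W.Δ * D) ∧ (D : ℤ) ∣ W.Δ ∧
      (∃ r : MRep k, TwoAdic.IsDihedralResidual D r ∧ IsCont r ∧
        ∀ ℓ : ℕ, ℓ.Prime → W.IsGoodPrimeFor ℓ → ∀ P : ValuationSubring (AlgebraicClosure ℚ),
          P.LiesOverPrime ℓ → ∀ φ : GQ, P.IsFrobeniusAt φ ℓ →
            (r φ).trace = (W.apOfModel ℓ : k)) ∧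
      ∃ f : CuspForm (CongruenceSubgroup.Gamma0 D) 2, f.IsNormalizedEigenform ∧
        ∃ Q : Ideal (integralClosure ℤ ℂ), Q.IsMaximal ∧ (2 : integralClosure ℤ ℂ) ∈ Q ∧
          (∀ ℓ : ℕ, ℓ.Prime → (ℓ = 2 ∨ ℓ ∣ D) → ∃ a : integralClosure ℤ ℂ,
            (a : ℂ) = ModularFormClass.qCoeff f ℓ ∧ a - 1 ∈ Q) ∧
          ∀ ℓ : ℕ, ℓ.Prime → W.IsGoodPrimeFor ℓ → ∃ a : integralClosure ℤ ℂ,
            (a : ℂ) = ModularFormClass.qCoeff f ℓ ∧
              a - ((W.apOfModel ℓ : ℤ) : integralClosure ℤ ℂ) ∈ Q :=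
  exists_residual_modularity classCharInput W hW hneg hΔ hcub k

end Fermat.Agent.DihedralGlue
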